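/-
IHARA / Nf (helper4), part 2: **the Cayley–Hamilton relation for every element of `G_ℚ`**, from the
relation for the Frobenius elements outside a finite set, by Chebotarev and continuity.

`T₀` a finite `ℤ_p`-module with a continuous action `gal` of `G_ℚ`, `𝒪'` a Noetherian local
`ℤ_p`-algebra with `p ∈ 𝔪`, `V = 𝒪' ⊗ T₀`, `Y ≤ V` a submodule, `t d : G_ℚ → 𝒪'` continuous.  If
`φ² y - t(φ) φ y + d(φ) y = 0` for all `y ∈ Y` and all Frobenius elements `φ` at the primes outside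
a finite set, the same holds for every `g ∈ G_ℚ`.
-/
import Mathlib
import Fermat.Agent.Lib.Mazur.E2.CH

set_option autoImplicit false
set_option linter.unusedSectionVars false
set_option linter.unusedVariables false
set_option linter.style.haveILetI false

open scoped TensorProduct
open IsLocalRing

namespace Fermat.Agent.Ihara

local notation "Qb" => AlgebraicClosure ℚ
local notation "GQ" => (AlgebraicClosure ℚ ≃ₐ[ℚ] AlgebraicClosure ℚ)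

section

variable {p : ℕ} [hp : Fact p.Prime] {T₀ : Type*} [AddCommGroup T₀] [Module ℤ_[p] T₀]
  {𝒪' : Type*} [CommRing 𝒪'] [IsLocalRing 𝒪'] [Algebra ℤ_[p] 𝒪']

/-- an endomorphism of `T₀` which is `≡ 1` modulo `p ^ n` is `≡ 1` modulo `𝔪 ^ n` after base
change -/
theorem ihn_baseChange_sub_mem (hp𝒪 : (p : 𝒪') ∈ maximalIdeal 𝒪') (f : Module.End ℤ_[p] T₀) (n : ℕ)
    (hf : ∀ v : T₀, ∃ w : T₀, f v - v = (p : ℤ_[p]) ^ n • w) (x : 𝒪' ⊗[ℤ_[p]] T₀) :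
    f.baseChange 𝒪' x - x ∈ (maximalIdeal 𝒪' ^ n) • (⊤ : Submodule 𝒪' (𝒪' ⊗[ℤ_[p]] T₀)) := by
  induction x using TensorProduct.induction_on with
  | zero => simp
  | tmul a v =>
    obtain ⟨w, hw⟩ := hf v
    rw [LinearMap.baseChange_tmul, ← TensorProduct.tmul_sub, hw, TensorProduct.tmul_smul]
    have h1 : (p : ℤ_[p]) ^ n • (a ⊗ₜ[ℤ_[p]] w : 𝒪' ⊗[ℤ_[p]] T₀)
        = ((p : 𝒪') ^ n) • (a ⊗ₜ[ℤ_[p]] w) := by
      rw [← algebraMap_smul 𝒪' ((p : ℤ_[p]) ^ n) (a ⊗ₜ[ℤ_[p]] w : 𝒪' ⊗[ℤ_[p]] T₀), map_pow,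
        map_natCast]
    rw [h1]
    exact Submodule.smul_mem_smul (Ideal.pow_mem_pow hp𝒪 n) Submodule.mem_top
  | add x y hx hy =>
    have : f.baseChange 𝒪' (x + y) - (x + y)
        = (f.baseChange 𝒪' x - x) + (f.baseChange 𝒪' y - y) := by
      rw [map_add]; abel
    rw [this]
    exact Submodule.add_mem _ hx hy

variable [IsNoetherianRing 𝒪'] [Module.Finite ℤ_[p] T₀]

/-- **(CH) for every element of the Galois group** -/
theorem ihn_CH_of_frob (hp𝒪 : (p : 𝒪') ∈ maximalIdeal 𝒪')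
    (gal : GQ →* Module.End ℤ_[p] T₀)
    (hcont : ∀ n : ℕ, ∃ L : IntermediateField ℚ Qb, FiniteDimensional ℚ L ∧
      ∀ σ : GQ, (∀ x ∈ L, σ x = x) → ∀ v : T₀, ∃ w : T₀, gal σ v - v = (p : ℤ_[p]) ^ n • w)
    (t d : GQ → 𝒪')
    (htd : ∀ n : ℕ, ∃ L : IntermediateField ℚ Qb, FiniteDimensional ℚ L ∧
      ∀ g g' : GQ, (∀ x ∈ L, g x = g' x) →
        t g - t g' ∈ maximalIdeal 𝒪' ^ n ∧ d g - d g' ∈ maximalIdeal 𝒪' ^ n)
    (Y : Submodule 𝒪' (𝒪' ⊗[ℤ_[p]] T₀)) (T : Finset ℕ)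
    (hfrob : ∀ ℓ : ℕ, ℓ.Prime → ℓ ∉ T → ∀ (P : ValuationSubring Qb) (φ : GQ),
      P.LiesOverPrime ℓ → P.IsFrobeniusAt φ ℓ → ∀ y ∈ Y,
        (gal φ).baseChange 𝒪' ((gal φ).baseChange 𝒪' y) - t φ • (gal φ).baseChange 𝒪' y
          + d φ • y = 0)
    (g : GQ) (y : 𝒪' ⊗[ℤ_[p]] T₀) (hy : y ∈ Y) :
    (gal g).baseChange 𝒪' ((gal g).baseChange 𝒪' y) - t g • (gal g).baseChange 𝒪' y
      + d g • y = 0 := by
  classical
  have hkrull : (⨅ i : ℕ, maximalIdeal 𝒪' ^ i • ⊤ : Submodule 𝒪' (𝒪' ⊗[ℤ_[p]] T₀)) = ⊥ :=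
    Ideal.iInf_pow_smul_eq_bot_of_isLocalRing _ (Ideal.IsMaximal.ne_top inferInstance)
  rw [← Submodule.mem_bot 𝒪', ← hkrull, Submodule.mem_iInf]
  intro n
  set I : Submodule 𝒪' (𝒪' ⊗[ℤ_[p]] T₀) := maximalIdeal 𝒪' ^ n • ⊤ with hI
  obtain ⟨L₁, hL₁, h₁⟩ := hcont n
  obtain ⟨L₂, hL₂, h₂⟩ := htd n
  haveI := hL₁
  haveI := hL₂
  obtain ⟨ℓ, hℓ, hℓT, P, φ, hP, hφ, hag⟩ :=
    Fermat.Agent.Mazur.mze2_exists_frob_agree (L₁ ⊔ L₂)
      (IntermediateField.finiteDimensional_sup L₁ L₂) T g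
  -- `σ = φ⁻¹ g` fixes `L₁`
  have hfix : ∀ x ∈ L₁, (φ⁻¹ * g) x = x := by
    intro x hx
    rw [AlgEquiv.mul_apply, ← hag x ((le_sup_left : L₁ ≤ L₁ ⊔ L₂) hx)]
    exact φ.symm_apply_apply x
  have hσ : ∀ w : 𝒪' ⊗[ℤ_[p]] T₀, (gal (φ⁻¹ * g)).baseChange 𝒪' w - w ∈ I := fun w =>
    ihn_baseChange_sub_mem hp𝒪 (gal (φ⁻¹ * g)) n (h₁ _ hfix) w
  set G : GQ → Module.End 𝒪' (𝒪' ⊗[ℤ_[p]] T₀) := fun s => (gal s).baseChange 𝒪' with hG
  have hGmul : ∀ s s' w, G (s * s') w = G s (G s' w) := by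
    intro s s' w
    simp only [hG]
    rw [map_mul, Module.End.mul_eq_comp, LinearMap.baseChange_comp, LinearMap.comp_apply]
  have hIstab : ∀ (f : Module.End 𝒪' (𝒪' ⊗[ℤ_[p]] T₀)) (w : 𝒪' ⊗[ℤ_[p]] T₀), w ∈ I → f w ∈ I := fun f w hw =>
    Submodule.smul_top_le_comap_smul_top _ f hw
  -- `G g ≡ G φ`
  have hgφ : ∀ w : 𝒪' ⊗[ℤ_[p]] T₀, G g w - G φ w ∈ I := by
    intro w
    have h1 : G g w - G φ w = G φ (G (φ⁻¹ * g) w - w) := by
      rw [map_sub, ← hGmul, mul_inv_cancel_left]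
    rw [h1]
    exact hIstab _ _ (hσ w)
  obtain ⟨ht, hd⟩ := h₂ g φ (fun x hx => (hag x ((le_sup_right : L₂ ≤ L₁ ⊔ L₂) hx)).symm)
  have h0 := hfrob ℓ hℓ hℓT P φ hP hφ y hy
  have key : G g (G g y) - t g • G g y + d g • y
      = (G g (G g y - G φ y) + (G g (G φ y) - G φ (G φ y)))
        - ((t g - t φ) • G g y + t φ • (G g y - G φ y)) + (d g - d φ) • y
        + (G φ (G φ y) - t φ • G φ y + d φ • y) := by
    rw [map_sub]
    module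
  show G g (G g y) - t g • G g y + d g • y ∈ I
  rw [key, h0, add_zero]
  refine Submodule.add_mem _ (Submodule.sub_mem _ (Submodule.add_mem _ ?_ ?_)
    (Submodule.add_mem _ ?_ ?_)) ?_
  · exact hIstab _ _ (hgφ y)
  · exact hgφ (G φ y)
  · exact Submodule.smul_mem_smul ht Submodule.mem_top
  · exact Submodule.smul_mem _ _ (hgφ y)
  · exact Submodule.smul_mem_smul hd Submodule.mem_top

end

end Fermat.Agent.Ihara
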