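/-
IHARA / Nf (helper4), part 4: **base change of the parabolic homomorphisms along `R₁ → R₂`**
(`R₁`, `R₂` domains of characteristic zero, e.g. `ℤ_p → 𝒪'`):
`ihnBase N R₁ R₂ : R₂ ⊗[R₁] parabolicHoms R₁ Γ₀(N) R₁ ≃ₗ[R₂] parabolicHoms R₂ Γ₀(N) R₂`,
`a ⊗ φ ↦ a • (algebraMap ∘ φ)`, compatible with the operators of coset systems.
-/
import Mathlib
import Fermat.Agent.Lib.T1.Mono.Lattice

set_option autoImplicit false
set_option linter.unusedSectionVars false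
set_option linter.unusedVariables false
set_option linter.style.haveILetI false

open scoped TensorProduct
open Matrix MatrixGroups CongruenceSubgroup ModularCurve ModularCurve.Period Fermat.Agent.T1

namespace Fermat.Agent.Ihara

noncomputable section

variable (N : ℕ) [NeZero N] (R₁ R₂ : Type*) [CommRing R₁] [CommRing R₂] [Algebra R₁ R₂]

/-- `φ ↦ algebraMap ∘ φ` -/
def ihnCastHom : (Additive (Gamma0 N) →+ R₁) →ₗ[R₁] (Additive (Gamma0 N) →+ R₂) where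
  toFun φ := ((algebraMap R₁ R₂ : R₁ →+* R₂) : R₁ →+ R₂).comp φ
  map_add' φ ψ := by ext; simp
  map_smul' c φ := by
    ext γ
    simp [Algebra.smul_def]

@[simp] theorem ihnCastHom_apply (φ : Additive (Gamma0 N) →+ R₁) (γ : Additive (Gamma0 N)) :
    ihnCastHom N R₁ R₂ φ γ = algebraMap R₁ R₂ (φ γ) := rfl

theorem ihnCastHom_mem {φ : Additive (Gamma0 N) →+ R₁} (hφ : φ ∈ parabolicHoms R₁ (Gamma0 N) R₁) :
    ihnCastHom N R₁ R₂ φ ∈ parabolicHoms R₂ (Gamma0 N) R₂ := by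
  intro γ hγ
  show algebraMap R₁ R₂ (φ (Additive.ofMul γ)) = 0
  rw [hφ γ hγ, map_zero]

/-- `parabolicHoms R₁ Γ R₁ → parabolicHoms R₂ Γ R₂` -/
def ihnCastP : ↥(parabolicHoms R₁ (Gamma0 N) R₁) →ₗ[R₁] ↥(parabolicHoms R₂ (Gamma0 N) R₂) where
  toFun φ := ⟨ihnCastHom N R₁ R₂ φ, ihnCastHom_mem N R₁ R₂ φ.2⟩
  map_add' φ ψ := by apply Subtype.ext; simp
  map_smul' c φ := by apply Subtype.ext; simp

@[simp] theorem ihnCastP_coe (φ : ↥(parabolicHoms R₁ (Gamma0 N) R₁)) :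
    ((ihnCastP N R₁ R₂ φ : ↥(parabolicHoms R₂ (Gamma0 N) R₂)) : Additive (Gamma0 N) →+ R₂)
      = ihnCastHom N R₁ R₂ φ := rfl

/-- the base change map -/
def ihnBaseMap :
    R₂ ⊗[R₁] ↥(parabolicHoms R₁ (Gamma0 N) R₁) →ₗ[R₂] ↥(parabolicHoms R₂ (Gamma0 N) R₂) :=
  LinearMap.liftBaseChange R₂ (ihnCastP N R₁ R₂)

@[simp] theorem ihnBaseMap_tmul (a : R₂) (φ : ↥(parabolicHoms R₁ (Gamma0 N) R₁)) :
    ihnBaseMap N R₁ R₂ (a ⊗ₜ[R₁] φ) = a • ihnCastP N R₁ R₂ φ := by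
  rw [ihnBaseMap, LinearMap.liftBaseChange_tmul]

/-- compatibility with the operators of coset systems -/
theorem ihnBaseMap_homPar {ι : Type} [Fintype ι] (S : tdmCosetSys (Gamma0 N) ι)
    (x : R₂ ⊗[R₁] ↥(parabolicHoms R₁ (Gamma0 N) R₁)) :
    ihnBaseMap N R₁ R₂ ((S.homPar R₁ R₁).baseChange R₂ x)
      = S.homPar R₂ R₂ (ihnBaseMap N R₁ R₂ x) := by
  induction x using TensorProduct.induction_on with
  | zero => simp
  | tmul a φ =>
    rw [LinearMap.baseChange_tmul, ihnBaseMap_tmul, ihnBaseMap_tmul, map_smul]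
    congr 1
    apply Subtype.ext
    rw [tdmCosetSys.homPar_coe, ihnCastP_coe, ihnCastP_coe, tdmCosetSys.homPar_coe]
    exact (S.hom_comp ((algebraMap R₁ R₂ : R₁ →+* R₂) : R₁ →+ R₂) φ.1).symm
  | add x y hx hy => rw [map_add, map_add, hx, hy, map_add, map_add]

variable [IsDomain R₁] [CharZero R₁] [IsDomain R₂] [CharZero R₂]

/-- the two casts of an integral parabolic homomorphism are compatible -/
theorem ihnCastP_tdmCastL (φ : ↥(tdmL N)) :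
    ihnCastP N R₁ R₂ (tdmCastL N R₁ φ) = tdmCastL N R₂ φ := by
  apply Subtype.ext
  ext γ
  simp

theorem ihnBaseMap_bijective : Function.Bijective (ihnBaseMap N R₁ R₂) := by
  classical
  let b := Module.Free.chooseBasis ℤ ↥(tdmL N)
  let B₁ : Module.Basis _ R₁ ↥(parabolicHoms R₁ (Gamma0 N) R₁) :=
    (b.baseChange R₁).map (tdmBC N R₁)
  let B₂ : Module.Basis _ R₂ ↥(parabolicHoms R₂ (Gamma0 N) R₂) :=
    (b.baseChange R₂).map (tdmBC N R₂)
  have hB₁ : ∀ i, B₁ i = tdmCastL N R₁ (b i) := by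
    intro i
    show tdmBC N R₁ ((b.baseChange R₁) i) = _
    rw [Module.Basis.baseChange_apply, tdmBC_tmul, one_smul]
  have hB₂ : ∀ i, B₂ i = tdmCastL N R₂ (b i) := by
    intro i
    show tdmBC N R₂ ((b.baseChange R₂) i) = _
    rw [Module.Basis.baseChange_apply, tdmBC_tmul, one_smul]
  let B₁' := B₁.baseChange R₂
  have h : ihnBaseMap N R₁ R₂ = (B₁'.equiv B₂ (Equiv.refl _)).toLinearMap := by
    apply B₁'.ext
    intro i
    rw [LinearEquiv.coe_coe, Module.Basis.equiv_apply, Equiv.refl_apply, hB₂]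
    show ihnBaseMap N R₁ R₂ ((B₁.baseChange R₂) i) = _
    rw [Module.Basis.baseChange_apply, ihnBaseMap_tmul, one_smul, hB₁, ihnCastP_tdmCastL]
  rw [h]
  exact (B₁'.equiv B₂ (Equiv.refl _)).bijective

/-- **the base change isomorphism** `R₂ ⊗[R₁] parabolicHoms R₁ Γ₀(N) R₁ ≃ parabolicHoms R₂ Γ₀(N) R₂` -/
def ihnBase :
    R₂ ⊗[R₁] ↥(parabolicHoms R₁ (Gamma0 N) R₁) ≃ₗ[R₂] ↥(parabolicHoms R₂ (Gamma0 N) R₂) :=
  LinearEquiv.ofBijective (ihnBaseMap N R₁ R₂) (ihnBaseMap_bijective N R₁ R₂)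

@[simp] theorem ihnBase_apply (x : R₂ ⊗[R₁] ↥(parabolicHoms R₁ (Gamma0 N) R₁)) :
    ihnBase N R₁ R₂ x = ihnBaseMap N R₁ R₂ x := rfl

theorem ihnBase_homPar {ι : Type} [Fintype ι] (S : tdmCosetSys (Gamma0 N) ι)
    (x : R₂ ⊗[R₁] ↥(parabolicHoms R₁ (Gamma0 N) R₁)) :
    ihnBase N R₁ R₂ ((S.homPar R₁ R₁).baseChange R₂ x) = S.homPar R₂ R₂ (ihnBase N R₁ R₂ x) :=
  ihnBaseMap_homPar N R₁ R₂ S x

end

end Fermat.Agent.Ihara
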