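/-
IHARA / Nf (helper4), part 5: **continuity of the trace and the determinant** of a continuous matrix
representation `r : G_ℚ → GL₂(A)` (`MatCts`): on a suitable finite level, `tr r` and `det r` are
constant modulo `𝔪 ^ n`.
-/
import Mathlib
import Fermat.Agent.Lib.S53.MatInterface

set_option autoImplicit false
set_option linter.unusedSectionVars false
set_option linter.unusedVariables false
set_option linter.style.haveILetI false

open IsLocalRing Matrix Fermat.Agent.S53Lib

namespace Fermat.Agent.Ihara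

local notation "Qb" => AlgebraicClosure ℚ
local notation "GQ" => (AlgebraicClosure ℚ ≃ₐ[ℚ] AlgebraicClosure ℚ)

variable {A : Type} [CommRing A] [IsLocalRing A]

/-- trace and determinant of `X * (1 + E)` for `E ≡ 0` modulo an ideal -/
theorem ihn_trace_det_congr (I : Ideal A) (X E : Matrix (Fin 2) (Fin 2) A)
    (hE : ∀ i j, E i j ∈ I) :
    (X * (1 + E)).trace - X.trace ∈ I ∧ (X * (1 + E)).det - X.det ∈ I := by
  constructor
  · have h1 : (X * (1 + E)).trace - X.trace = (X * E).trace := by
      rw [mul_add, mul_one, Matrix.trace_add, add_sub_cancel_left]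
    rw [h1, Matrix.trace_fin_two]
    simp only [Matrix.mul_apply, Fin.sum_univ_two]
    exact I.add_mem (I.add_mem (I.mul_mem_left _ (hE _ _)) (I.mul_mem_left _ (hE _ _)))
      (I.add_mem (I.mul_mem_left _ (hE _ _)) (I.mul_mem_left _ (hE _ _)))
  · have h1 : (X * (1 + E)).det - X.det = X.det * ((1 + E).det - 1) := by
      rw [Matrix.det_mul]; ring
    rw [h1]
    apply I.mul_mem_left
    rw [Matrix.det_fin_two]
    simp only [Matrix.add_apply, Matrix.one_apply_eq, Matrix.one_apply_ne, ne_eq, zero_ne_one,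
      one_ne_zero, not_false_eq_true, zero_add]
    have h2 : (1 + E 0 0) * (1 + E 1 1) - E 0 1 * E 1 0 - 1
        = E 0 0 + E 1 1 + E 0 0 * E 1 1 - E 0 1 * E 1 0 := by ring
    rw [h2]
    exact I.sub_mem (I.add_mem (I.add_mem (hE _ _) (hE _ _)) (I.mul_mem_left _ (hE _ _)))
      (I.mul_mem_left _ (hE _ _))

/-- **continuity of trace and determinant** -/
theorem ihn_trace_det_cts (r : GQ →* Matrix (Fin 2) (Fin 2) A) (hcts : MatCts A r) (n : ℕ) :
    ∃ L : IntermediateField ℚ Qb, FiniteDimensional ℚ L ∧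
      ∀ g g' : GQ, (∀ x ∈ L, g x = g' x) →
        (r g).trace - (r g').trace ∈ maximalIdeal A ^ n ∧
        (r g).det - (r g').det ∈ maximalIdeal A ^ n := by
  obtain ⟨L, hL, h⟩ := hcts n
  refine ⟨L, hL, fun g g' hgg' => ?_⟩
  have hfix : ∀ x ∈ L, (g'⁻¹ * g) x = x := by
    intro x hx
    rw [AlgEquiv.mul_apply, hgg' x hx]
    exact g'.symm_apply_apply x
  have hE := h (g'⁻¹ * g) hfix
  have h1 : r g = r g' * (1 + (r (g'⁻¹ * g) - 1)) := by
    rw [add_sub_cancel, ← map_mul, mul_inv_cancel_left]
  rw [h1]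
  exact ihn_trace_det_congr (maximalIdeal A ^ n) (r g') _ hE

end Fermat.Agent.Ihara
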