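/-
IHARA / Nf (helper4), part 3: **the concrete Tate module of `J₀(N)`** with its Galois action
`ihnGal p N = t2fGal p (tddDescent N)` and Hecke action `tdmHeckeP p N`: continuity, the
Eichler–Shimura relation, and the commutation of the Galois action with `T_ℓ`, `U_q` and `W_{q²}`
(the internal facts of `t4g_package`, for the concrete objects).
-/
import Mathlib
import Fermat.Agent.Lib.T4.G.Pkg
import Fermat.Agent.Lib.T4.G.WU

set_option autoImplicit false
set_option linter.unusedSectionVars false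
set_option linter.unusedVariables false
set_option linter.style.haveILetI false

namespace Fermat.Agent.Ihara

open Complex Set Filter Topology Matrix MatrixGroups CongruenceSubgroup ModularCurve
open UpperHalfPlane hiding I
open Fermat.Agent.S24Lib ModularCurve.Period Fermat.Agent.T1 Fermat.Agent.T2 Fermat.Agent.T4
open scoped TensorProduct

local notation "Kbar" => AlgebraicClosure ℚ
local notation "GQ" => (AlgebraicClosure ℚ ≃ₐ[ℚ] AlgebraicClosure ℚ)

noncomputable section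

variable (p : ℕ) [hp : Fact p.Prime] (N : ℕ) [NeZero N]

/-- the Galois action on the `p`-adic Tate module `parabolicHoms ℤ_p Γ₀(N) ℤ_p` of `J₀(N)` -/
def ihnGal : GQ →* Module.End ℤ_[p] ↥(parabolicHoms ℤ_[p] (Gamma0 N) ℤ_[p]) :=
  t2fGal p (tddDescent N)

/-- the Galois action commutes with the operator of a coset system which is realised on the function
field compatibly with the Galois action -/
theorem ihnGal_comm_sys {ι : Type} [Fintype ι] (S : tdmCosetSys (Gamma0 N) ι)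
    (W : Module.End ℤ_[p] ↥(parabolicHoms ℤ_[p] (Gamma0 N) ℤ_[p]))
    (hW : ∀ x : ↥(parabolicHoms ℤ_[p] (Gamma0 N) ℤ_[p]),
      ((W x : ↥(parabolicHoms ℤ_[p] (Gamma0 N) ℤ_[p])) : Additive (Gamma0 N) →+ ℤ_[p])
        = S.hom ℤ_[p] (x : Additive (Gamma0 N) →+ ℤ_[p]))
    (wU : (↥(modularFunctionFieldBar N))ˣ →* (↥(modularFunctionFieldBar N))ˣ)
    (hfn : ∀ y : (↥(modularFunctionFieldBar N))ˣ,
      (tddDict Kbar N).fn ((wU y : (↥(modularFunctionFieldBar N))ˣ) : ↥(modularFunctionFieldBar N))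
        = S.prodFn ((tddDict Kbar N).fn (y : ↥(modularFunctionFieldBar N))))
    (hsig : ∀ (σ : GQ) (y : (↥(modularFunctionFieldBar N))ˣ),
      wU (tkrSig N σ y) = tkrSig N σ (wU y))
    (σ : GQ) : ihnGal p N σ * W = W * ihnGal p N σ := by
  apply (tdmTowerN p N).end_ext
  intro k x
  rw [Module.End.mul_apply, Module.End.mul_apply, ihnGal, t2fGal_ι,
    tdm_ι_hom p S k x _ (hW x), tdm_ι_hom p S k _ _ (hW _), t2fGal_ι]
  exact congrArg Additive.ofMul ((tddDescent N).galX_op S (tdm_prime_pow_ne_zero p k) wU hfn hsig σ _)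

/-- the Galois action commutes with `T_ℓ` -/
theorem ihnGal_comm_T (l : ℕ) (hl : l.Prime) (hlN : ¬ l ∣ N) (σ : GQ) :
    ihnGal p N σ * tdmHeckeP p N (CuspForm.heckeAlgebra.T hl hlN (Set.notMem_empty l))
      = tdmHeckeP p N (CuspForm.heckeAlgebra.T hl hlN (Set.notMem_empty l)) * ihnGal p N σ :=
  ihnGal_comm_sys p N (tdmSysT N l hl hlN) _ (tdmHeckeP_T p N l hl hlN) (tkrHeckeUnits N l)
    ((tddDict Kbar N).fn_heckeT (tddDict_toMer Kbar N) l hl hlN) (tkrHeckeUnits_sig l) σ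

/-- the Galois action commutes with `U_q` -/
theorem ihnGal_comm_U (q : ℕ) (hq : q.Prime) (hqN : q ∣ N) (σ : GQ) :
    ihnGal p N σ * tdmHeckeP p N (CuspForm.heckeAlgebra.U hq hqN (Set.notMem_empty q))
      = tdmHeckeP p N (CuspForm.heckeAlgebra.U hq hqN (Set.notMem_empty q)) * ihnGal p N σ :=
  ihnGal_comm_sys p N (tdmSysU N q hqN hq.ne_zero) _ (tdmHeckeP_U p N q hq hqN)
    (tkrHeckeUUnits N q) ((tddDict Kbar N).fn_heckeU (tddDict_toMer Kbar N) q hq hqN)
    (tkrHeckeUUnits_sig q) σ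

/-- continuity of the Galois action -/
theorem ihnGal_cont (n : ℕ) : ∃ L : IntermediateField ℚ Kbar, FiniteDimensional ℚ L ∧
    ∀ σ : GQ, (∀ x ∈ L, σ x = x) → ∀ v : ↥(parabolicHoms ℤ_[p] (Gamma0 N) ℤ_[p]),
      ∃ w : ↥(parabolicHoms ℤ_[p] (Gamma0 N) ℤ_[p]), ihnGal p N σ v - v = (p : ℤ_[p]) ^ n • w := by
  obtain ⟨L, hL, h1⟩ := (tddDescent N).galX_cont (tdm_prime_pow_ne_zero p n)
    (tdd_exists_finite_fixing N)
  refine ⟨L, hL, fun σ hσ v => ?_⟩
  apply (tdmTowerN p N).exists_of_ι_eq_zero n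
  rw [map_sub, ihnGal, t2fGal_ι, (tddDescent N).galW_apply p, h1 σ hσ, sub_eq_zero]
  rfl

/-- the Eichler–Shimura relation -/
theorem ihnGal_ES (l : ℕ) (hl : l.Prime) (hlN : ¬ l ∣ N) (hlp : l ≠ p)
    (A : ValuationSubring Kbar) (hA : A.LiesOverPrime l) (σ : GQ) (hσ : A.IsFrobeniusAt σ l) :
    ihnGal p N σ * ihnGal p N σ
        - tdmHeckeP p N (CuspForm.heckeAlgebra.T hl hlN (Set.notMem_empty l)) * ihnGal p N σ
        + (l : ℤ_[p]) • (1 : Module.End ℤ_[p] ↥(parabolicHoms ℤ_[p] (Gamma0 N) ℤ_[p])) = 0 := by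
  have hK3 := tkr_hK3_of_inputs N
    (fun 𝔓 _ _ hM H hH => tbq_allLevelsOK 𝔓 _ hM H hH)
    (fun 𝔓 _ _ hM h49 => tkr_barOK 𝔓 h49 hM) p hp.out
  set D := tdmTowerN p N with hD
  set E := tddDescent N with hE
  have hιgal : ∀ (τ : GQ) (x : ↥(parabolicHoms ℤ_[p] (Gamma0 N) ℤ_[p])) (k : ℕ),
      D.ι k (ihnGal p N τ x) = E.galW p k τ (D.ι k x) := fun τ x k => t2fGal_ι p E τ x k
  have hιT : ∀ (k : ℕ) (x : ↥(parabolicHoms ℤ_[p] (Gamma0 N) ℤ_[p])),
      D.ι k (tdmHeckeP p N (CuspForm.heckeAlgebra.T hl hlN (Set.notMem_empty l)) x)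
        = MonoidHom.toAdditive ((tdmSysT N l hl hlN).homX (p ^ k)) (D.ι k x) :=
    fun k x => tdm_ι_hom p (tdmSysT N l hl hlN) k x _ (tdmHeckeP_T p N l hl hlN x)
  apply D.end_ext
  intro k x
  have h2 : D.ι k (((l : ℤ_[p]) • (1 : Module.End ℤ_[p]
      ↥(parabolicHoms ℤ_[p] (Gamma0 N) ℤ_[p]))) x) = l • D.ι k x := by
    rw [LinearMap.smul_apply, Module.End.one_apply, Nat.cast_smul_eq_nsmul, map_nsmul]
  have h3 := E.galX_frob (tdmSysT N l hl hlN) (tdm_prime_pow_ne_zero p k) l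
    (tkrHeckeUnits N l) ((tddDict Kbar N).fn_heckeT (tddDict_toMer Kbar N) l hl hlN) σ
    (fun y hy hT =>
      tkr_K3_frob (hK3 l hl hlN hlp A hA k).1 (hK3 l hl hlN hlp A hA k).2
        (tdm_prime_pow_ne_zero p k) hl hlN hA hσ hy hT) (Additive.toMul (D.ι k x))
  have h4 : E.galW p k σ (E.galW p k σ (D.ι k x)) + l • D.ι k x
      = MonoidHom.toAdditive ((tdmSysT N l hl hlN).homX (p ^ k)) (E.galW p k σ (D.ι k x)) :=
    congrArg Additive.ofMul h3
  simp only [LinearMap.add_apply, LinearMap.sub_apply, Module.End.mul_apply, map_add, map_sub,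
    hιgal, hιT, h2, LinearMap.zero_apply, map_zero]
  rw [← h4]
  abel

end

section W

variable (p : ℕ) [hp : Fact p.Prime] (N'' q : ℕ) [NeZero N''] [hq : Fact q.Prime] (h : ¬ q ∣ N'')
  [NeZero (N'' * q * q)]

/-- the Galois action commutes with the Atkin–Lehner involution `W_{q²}` -/
theorem ihnGal_comm_W (σ : GQ) :
    ihnGal p (N'' * q * q) σ * t4gW p N'' q h = t4gW p N'' q h * ihnGal p (N'' * q * q) σ := by
  obtain ⟨hwfn, hwsig⟩ := t4gWU_compat N'' q h
  exact ihnGal_comm_sys p (N'' * q * q) (t4gSysW N'' q h) _ (t4gW_coe p N'' q h)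
    (t4gWU N'' q h) (hwfn (tddDict Kbar (N'' * q * q)) (tddDict_toMer Kbar (N'' * q * q)))
    hwsig σ

end W

end Fermat.Agent.Ihara
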