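/-
IHARA / Nf (helper4), part 6: **the submodule `Y ≤ V = 𝒪' ⊗ Ta_p J₀(N'' v²)`** cut out by
`T_ℓ = lam ℓ` (`ℓ ∉ S`), `U_v = 0`, `U_v W = 0`: it is Galois stable, it satisfies the
Cayley–Hamilton relation of a representation `r` with the Frobenius data `lam`, it has no non-zero
vector fixed by an inertia group at `v` (NEW), hence `r` is not unipotent on that inertia group as
soon as `Y ≠ 0`.
-/
import Mathlib
import Fermat.Agent.Lib.Ihara.Nf.Unip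
import Fermat.Agent.Lib.Ihara.Nf.Approx
import Fermat.Agent.Lib.Ihara.Nf.Pkg
import Fermat.Agent.Lib.Ihara.Nf.Base
import Fermat.Agent.Lib.Ihara.Nf.Cts
import Fermat.Agent.Lib.T4.G.Core
import Fermat.Agent.Lib.T4.G.Extract
import Fermat.Agent.Lib.T4.New.StepCFixU

set_option autoImplicit false
set_option linter.unusedSectionVars false
set_option linter.unusedVariables false
set_option linter.style.haveILetI false

open scoped TensorProduct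
open IsLocalRing Matrix MatrixGroups CongruenceSubgroup Fermat.Agent.T1 Fermat.Agent.T2
  Fermat.Agent.T4 ModularCurve Fermat.Agent.S24Lib ModularCurve.Period Fermat.Agent.S53Lib

namespace Fermat.Agent.Ihara

local notation "Qb" => AlgebraicClosure ℚ
local notation "GQ" => (AlgebraicClosure ℚ ≃ₐ[ℚ] AlgebraicClosure ℚ)

/-- base change of commuting endomorphisms -/
theorem ihn_baseChange_comm {R : Type*} [CommRing R] {M : Type*} [AddCommGroup M] [Module R M]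
    (B : Type*) [CommRing B] [Algebra R B] {f g : Module.End R M} (h : f * g = g * f)
    (y : B ⊗[R] M) : f.baseChange B (g.baseChange B y) = g.baseChange B (f.baseChange B y) := by
  have h1 := congrArg (fun k : Module.End R M => k.baseChange B y) h
  simpa only [Module.End.mul_eq_comp, LinearMap.baseChange_comp, LinearMap.comp_apply] using h1

section

variable (p : ℕ) [hp : Fact p.Prime] (N'' v : ℕ) [NeZero N''] [hv : Fact v.Prime]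
  (hvN : ¬ v ∣ N'') [NeZero (N'' * v * v)]
  {𝒪' : Type} [CommRing 𝒪'] [Algebra ℤ_[p] 𝒪'] (lam : ℕ → 𝒪') (S : Finset ℕ)

/-- the base-changed Galois action -/
noncomputable abbrev ihnG (σ : GQ) :
    Module.End 𝒪' (𝒪' ⊗[ℤ_[p]] ↥(parabolicHoms ℤ_[p] (Gamma0 (N'' * v * v)) ℤ_[p])) :=
  (ihnGal p (N'' * v * v) σ).baseChange 𝒪'

/-- the base-changed `T_ℓ` -/
noncomputable abbrev ihnT (ℓ : ℕ) (hℓ : ℓ.Prime) (hℓN : ¬ ℓ ∣ N'' * v * v) :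
    Module.End 𝒪' (𝒪' ⊗[ℤ_[p]] ↥(parabolicHoms ℤ_[p] (Gamma0 (N'' * v * v)) ℤ_[p])) :=
  (tdmHeckeP p (N'' * v * v) (CuspForm.heckeAlgebra.T hℓ hℓN (Set.notMem_empty ℓ))).baseChange 𝒪'

/-- the base-changed `U_v` -/
noncomputable abbrev ihnU :
    Module.End 𝒪' (𝒪' ⊗[ℤ_[p]] ↥(parabolicHoms ℤ_[p] (Gamma0 (N'' * v * v)) ℤ_[p])) :=
  (tdmHeckeP p (N'' * v * v) (CuspForm.heckeAlgebra.U hv.out (t4g_q_dvd N'' v)
    (Set.notMem_empty v))).baseChange 𝒪'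

/-- the base-changed `W_{v²}` -/
noncomputable abbrev ihnW :
    Module.End 𝒪' (𝒪' ⊗[ℤ_[p]] ↥(parabolicHoms ℤ_[p] (Gamma0 (N'' * v * v)) ℤ_[p])) :=
  (t4gW p N'' v hvN).baseChange 𝒪'

theorem ihnG_mul (σ τ : GQ)
    (y : 𝒪' ⊗[ℤ_[p]] ↥(parabolicHoms ℤ_[p] (Gamma0 (N'' * v * v)) ℤ_[p])) :
    ihnG p N'' v (σ * τ) y = ihnG p N'' v σ (ihnG p N'' v τ y) := by
  show (ihnGal p (N'' * v * v) (σ * τ)).baseChange 𝒪' y = _
  rw [map_mul, Module.End.mul_eq_comp, LinearMap.baseChange_comp, LinearMap.comp_apply]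

/-- **the submodule `Y`**: `T_ℓ = lam ℓ` for `ℓ ∉ S`, `U_v = 0`, `U_v W = 0` -/
noncomputable def ihnY :
    Submodule 𝒪' (𝒪' ⊗[ℤ_[p]] ↥(parabolicHoms ℤ_[p] (Gamma0 (N'' * v * v)) ℤ_[p])) where
  carrier := {y | (∀ (ℓ : ℕ) (hℓ : ℓ.Prime) (hℓN : ¬ ℓ ∣ N'' * v * v), ℓ ∉ S →
      ihnT p N'' v ℓ hℓ hℓN y = lam ℓ • y) ∧
    ihnU p N'' v (𝒪' := 𝒪') y = 0 ∧ ihnU p N'' v (𝒪' := 𝒪') (ihnW p N'' v hvN y) = 0}
  zero_mem' := by
    refine ⟨fun ℓ hℓ hℓN _ => ?_, ?_, ?_⟩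
    · rw [map_zero, smul_zero]
    · rw [map_zero]
    · rw [map_zero, map_zero]
  add_mem' := by
    rintro a b ⟨ha1, ha2, ha3⟩ ⟨hb1, hb2, hb3⟩
    refine ⟨fun ℓ hℓ hℓN hℓS => ?_, ?_, ?_⟩
    · rw [map_add, ha1 ℓ hℓ hℓN hℓS, hb1 ℓ hℓ hℓN hℓS, smul_add]
    · rw [map_add, ha2, hb2, add_zero]
    · rw [map_add, map_add, ha3, hb3, add_zero]
  smul_mem' := by
    rintro c a ⟨ha1, ha2, ha3⟩
    refine ⟨fun ℓ hℓ hℓN hℓS => ?_, ?_, ?_⟩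
    · rw [map_smul, ha1 ℓ hℓ hℓN hℓS, smul_comm]
    · rw [map_smul, ha2, smul_zero]
    · rw [map_smul, map_smul, ha3, smul_zero]

theorem mem_ihnY {y : 𝒪' ⊗[ℤ_[p]] ↥(parabolicHoms ℤ_[p] (Gamma0 (N'' * v * v)) ℤ_[p])} :
    y ∈ ihnY p N'' v hvN lam S ↔
      (∀ (ℓ : ℕ) (hℓ : ℓ.Prime) (hℓN : ¬ ℓ ∣ N'' * v * v), ℓ ∉ S →
        ihnT p N'' v ℓ hℓ hℓN y = lam ℓ • y) ∧
      ihnU p N'' v (𝒪' := 𝒪') y = 0 ∧ ihnU p N'' v (𝒪' := 𝒪') (ihnW p N'' v hvN y) = 0 :=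
  Iff.rfl

/-- `Y` is Galois stable -/
theorem ihnY_stable {y : 𝒪' ⊗[ℤ_[p]] ↥(parabolicHoms ℤ_[p] (Gamma0 (N'' * v * v)) ℤ_[p])}
    (hy : y ∈ ihnY p N'' v hvN lam S) (σ : GQ) : ihnG p N'' v σ y ∈ ihnY p N'' v hvN lam S := by
  obtain ⟨h1, h2, h3⟩ := hy
  refine ⟨fun ℓ hℓ hℓN hℓS => ?_, ?_, ?_⟩
  · rw [← ihn_baseChange_comm 𝒪' (ihnGal_comm_T p (N'' * v * v) ℓ hℓ hℓN σ), h1 ℓ hℓ hℓN hℓS,
      map_smul]
  · rw [← ihn_baseChange_comm 𝒪' (ihnGal_comm_U p (N'' * v * v) v hv.out (t4g_q_dvd N'' v) σ), h2,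
      map_zero]
  · rw [← ihn_baseChange_comm 𝒪' (ihnGal_comm_W p N'' v hvN σ),
      ← ihn_baseChange_comm 𝒪' (ihnGal_comm_U p (N'' * v * v) v hv.out (t4g_q_dvd N'' v) σ), h3,
      map_zero]

end

section CH

variable (p : ℕ) [hp : Fact p.Prime] (N'' v : ℕ) [NeZero N''] [hv : Fact v.Prime]
  (hvN : ¬ v ∣ N'') [NeZero (N'' * v * v)]
  {𝒪' : Type} [CommRing 𝒪'] [IsLocalRing 𝒪'] [IsNoetherianRing 𝒪'] [Algebra ℤ_[p] 𝒪']
  (hp𝒪 : (p : 𝒪') ∈ maximalIdeal 𝒪') (lam : ℕ → 𝒪') (S : Finset ℕ) (hpS : p ∈ S)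
  (hNS : ∀ q : ℕ, q.Prime → q ∣ N'' * v * v → q ∈ S)
  (r : GQ →* Matrix (Fin 2) (Fin 2) 𝒪') (hcts : MatCts 𝒪' r)
  (hfrob : ∀ ℓ : ℕ, ℓ.Prime → ℓ ∉ S → ∀ P : ValuationSubring Qb, P.LiesOverPrime ℓ →
    ∀ φ : GQ, P.IsFrobeniusAt φ ℓ → (r φ).trace = lam ℓ ∧ (r φ).det = (ℓ : 𝒪'))

include hp𝒪 hpS hNS hcts hfrob in
/-- **the Cayley–Hamilton relation of `r` on `Y`**, for every element of the Galois group -/
theorem ihnY_CH (g : GQ)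
    {y : 𝒪' ⊗[ℤ_[p]] ↥(parabolicHoms ℤ_[p] (Gamma0 (N'' * v * v)) ℤ_[p])}
    (hy : y ∈ ihnY p N'' v hvN lam S) :
    ihnG p N'' v g (ihnG p N'' v g y) - (r g).trace • ihnG p N'' v g y + (r g).det • y = 0 := by
  refine ihn_CH_of_frob hp𝒪 (ihnGal p (N'' * v * v)) (ihnGal_cont p (N'' * v * v))
    (fun g => (r g).trace) (fun g => (r g).det) (ihn_trace_det_cts r hcts)
    (ihnY p N'' v hvN lam S) S ?_ g y hy
  intro ℓ hℓ hℓS P φ hP hφ z hz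
  have hℓN : ¬ ℓ ∣ N'' * v * v := fun h => hℓS (hNS ℓ hℓ h)
  have hℓp : ℓ ≠ p := fun h => hℓS (h ▸ hpS)
  obtain ⟨htr, hdet⟩ := hfrob ℓ hℓ hℓS P hP φ hφ
  have hz' := ihnY_stable p N'' v hvN lam S hz φ
  have h1 := congrArg (fun k : Module.End ℤ_[p]
      ↥(parabolicHoms ℤ_[p] (Gamma0 (N'' * v * v)) ℤ_[p]) => k.baseChange 𝒪' z)
    (ihnGal_ES p (N'' * v * v) ℓ hℓ hℓN hℓp P hP φ hφ)
  simp only [LinearMap.baseChange_add, LinearMap.baseChange_sub, LinearMap.baseChange_smul,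
    Module.End.mul_eq_comp, LinearMap.baseChange_comp, Module.End.one_eq_id,
    LinearMap.baseChange_id, LinearMap.add_apply, LinearMap.sub_apply, LinearMap.comp_apply,
    LinearMap.smul_apply, LinearMap.id_apply, LinearMap.baseChange_zero,
    LinearMap.zero_apply] at h1
  have h2 : (ℓ : ℤ_[p]) • z = (ℓ : 𝒪') • z := by
    rw [Nat.cast_smul_eq_nsmul, Nat.cast_smul_eq_nsmul]
  show ihnG p N'' v φ (ihnG p N'' v φ z) - (r φ).trace • ihnG p N'' v φ z + (r φ).det • z = 0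
  rw [htr, hdet, ← (mem_ihnY p N'' v hvN lam S).mp hz' |>.1 ℓ hℓ hℓN hℓS, ← h2]
  exact h1

end CH

section NoInv

variable (p : ℕ) [hp : Fact p.Prime] (N'' v : ℕ) [NeZero N''] [hv : Fact v.Prime]
  (hvN : ¬ v ∣ N'') [NeZero (N'' * v * v)] (hvp : v ≠ p)
  {𝒪' : Type} [CommRing 𝒪'] [IsDomain 𝒪'] [CharZero 𝒪'] [Algebra ℤ_[p] 𝒪']
  (lam : ℕ → 𝒪') (S : Finset ℕ)

include hvp in
/-- **(NEW) on `Y`**: no non-zero vector of `Y` is fixed by an inertia group at `v` -/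
theorem ihnY_noInv (A : ValuationSubring Qb) (hA : A.LiesOverPrime v)
    {y : 𝒪' ⊗[ℤ_[p]] ↥(parabolicHoms ℤ_[p] (Gamma0 (N'' * v * v)) ℤ_[p])}
    (hy : y ∈ ihnY p N'' v hvN lam S)
    (hI : ∀ σ ∈ A.inertiaSubgroupIn ℚ, ihnG p N'' v σ y = y) : y = 0 := by
  classical
  obtain ⟨-, hU, hUW⟩ := hy
  set TT := ↥(parabolicHoms ℤ_[p] (Gamma0 (N'' * v * v)) ℤ_[p]) with hTT
  set Uq : Module.End ℤ_[p] TT := tdmHeckeP p (N'' * v * v)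
    (CuspForm.heckeAlgebra.U hv.out (t4g_q_dvd N'' v) (Set.notMem_empty v)) with hUq
  set W : Module.End ℤ_[p] TT := t4gW p N'' v hvN with hW
  haveI : Module.IsTorsionFree ℤ_[p] 𝒪' :=
    Module.isTorsionFree_iff_algebraMap_injective.mpr (t2f_algebraMap_injective p 𝒪')
  obtain ⟨n, e, c, he, hyc⟩ := t4g_extract (R := ℤ_[p]) (𝒪 := 𝒪') (M := TT) y
  have hdesc : ∀ f : Module.End ℤ_[p] TT, f.baseChange 𝒪' y = 0 → ∀ i, f (c i) = 0 := by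
    intro f hf
    apply t4g_tmul_eq_zero he
    rw [← hf, hyc, map_sum]
    refine Finset.sum_congr rfl fun i _ => ?_
    rw [LinearMap.baseChange_tmul]
  have hc0 : ∀ i, c i = 0 := by
    intro i
    apply t4g_TT_new t4gWU t4gWU_compat t4nsc_new p N'' v hvN (tddDescent (N'' * v * v))
      (tddDict_toMer (AlgebraicClosure ℚ) (N'' * v * v)) hvp A hA (c i)
    · intro σ hσ
      have h1 := hdesc (ihnGal p (N'' * v * v) σ - 1) (by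
        rw [LinearMap.baseChange_sub, LinearMap.sub_apply, hI σ hσ, Module.End.one_eq_id,
          LinearMap.baseChange_id, LinearMap.id_apply, sub_self]) i
      rw [LinearMap.sub_apply, Module.End.one_apply, sub_eq_zero] at h1
      exact h1
    · exact hdesc Uq hU i
    · have h1 := hdesc (Uq * W) (by
        rw [Module.End.mul_eq_comp, LinearMap.baseChange_comp, LinearMap.comp_apply]
        exact hUW) i
      exact h1
  rw [hyc]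
  refine Finset.sum_eq_zero fun i _ => ?_
  rw [hc0 i, TensorProduct.tmul_zero]

end NoInv

section Main

variable (p : ℕ) [hp : Fact p.Prime] (N'' v : ℕ) [NeZero N''] [hv : Fact v.Prime]
  (hvN : ¬ v ∣ N'') [NeZero (N'' * v * v)] (hvp : v ≠ p)
  {𝒪' : Type} [CommRing 𝒪'] [IsDomain 𝒪'] [IsDiscreteValuationRing 𝒪'] [CharZero 𝒪']
  [Algebra ℤ_[p] 𝒪'] (hp𝒪 : (p : 𝒪') ∈ maximalIdeal 𝒪') (lam : ℕ → 𝒪') (S : Finset ℕ)
  (hpS : p ∈ S) (hNS : ∀ q : ℕ, q.Prime → q ∣ N'' * v * v → q ∈ S)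
  (r : GQ →* Matrix (Fin 2) (Fin 2) 𝒪') (hcts : MatCts 𝒪' r)
  (hfrob : ∀ ℓ : ℕ, ℓ.Prime → ℓ ∉ S → ∀ P : ValuationSubring Qb, P.LiesOverPrime ℓ →
    ∀ φ : GQ, P.IsFrobeniusAt φ ℓ → (r φ).trace = lam ℓ ∧ (r φ).det = (ℓ : 𝒪'))

include hvp hp𝒪 hpS hNS hcts hfrob in
/-- **if `Y ≠ 0` then `r` is not unipotent on an inertia group at `v`** -/
theorem ihnY_not_unipotent (hY : ∃ y ∈ ihnY p N'' v hvN lam S, y ≠ 0)
    (A : ValuationSubring Qb) (hA : A.LiesOverPrime v) :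
    ¬ ∀ τ ∈ A.inertiaSubgroupIn ℚ, (r τ).trace = 2 ∧ (r τ).det = 1 := by
  classical
  intro huni
  obtain ⟨y₀, hy₀, hy₀0⟩ := hY
  haveI : Module.IsTorsionFree 𝒪'
      (𝒪' ⊗[ℤ_[p]] ↥(parabolicHoms ℤ_[p] (Gamma0 (N'' * v * v)) ℤ_[p])) := inferInstance
  obtain ⟨y, hy, hy0, hfix⟩ := ihn_exists_fixed_in_submodule (ihnY p N'' v hvN lam S)
    (fun τ : ↥(A.inertiaSubgroupIn ℚ) => ihnG p N'' v (𝒪' := 𝒪') (τ : GQ))
    (fun τ y hy => ihnY_stable p N'' v hvN lam S hy (τ : GQ))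
    (fun i j => ⟨i * j, fun y _ => by rw [Subgroup.coe_mul, ihnG_mul]⟩)
    (fun τ y hy => by
      have h1 := ihnY_CH p N'' v hvN hp𝒪 lam S hpS hNS r hcts hfrob (τ : GQ) hy
      rw [(huni τ τ.2).1, (huni τ τ.2).2, one_smul] at h1
      exact h1)
    ⟨y₀, hy₀, hy₀0⟩
  exact hy0 (ihnY_noInv p N'' v hvN hvp lam S A hA hy fun σ hσ => hfix ⟨σ, hσ⟩)

end Main

end Fermat.Agent.Ihara
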