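/-
IHARA / Nf (helper4), part 8: **the level-generic link** between eigenclasses in
`Hom_par(Γ₀(N), 𝒪')` and the Galois module `V = 𝒪' ⊗ Ta_p J₀(N)` (requested by lead for (I-c)):

* (L1) `ihnLink p N 𝒪' : parabolicHoms 𝒪' Γ₀(N) 𝒪' ≃ₗ[𝒪'] 𝒪' ⊗[ℤ_p] parabolicHoms ℤ_p Γ₀(N) ℤ_p`,
  intertwining `S.homPar 𝒪' 𝒪'` with `(S.homPar ℤ_p ℤ_p).baseChange 𝒪'` for every coset system `S`
  (`ihnLink_homPar`), in particular `T_ℓ`, `U_q` (`ihnLink_T`, `ihnLink_U`);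
* (L2) `ihnYT p N lam S` : the common kernel of `T_ℓ - lam ℓ` (`ℓ ∉ S`) in `V`; it is stable under
  the Galois action (`ihnYT_stable`) and under every base-changed endomorphism commuting with the
  `T_ℓ` (`ihnYT_stable_of_comm`), and every `g ∈ G_ℚ` satisfies
  `g (g y) - tr r(g) • g y + det r(g) • y = 0` on it (`ihnYT_CH`).
-/
import Mathlib
import Fermat.Agent.Lib.Ihara.Nf.Core

set_option autoImplicit false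
set_option linter.unusedSectionVars false
set_option linter.unusedVariables false
set_option linter.style.haveILetI false

open scoped TensorProduct
open IsLocalRing Matrix MatrixGroups CongruenceSubgroup Fermat.Agent.T1 Fermat.Agent.T2
  Fermat.Agent.T4 ModularCurve Fermat.Agent.S24Lib ModularCurve.Period Fermat.Agent.S53Lib

namespace Fermat.Agent.Ihara

local notation "Qb" => AlgebraicClosure ℚ
local notation "GQ" => (AlgebraicClosure ℚ ≃ₐ[ℚ] AlgebraicClosure ℚ)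

section Ops

variable (p : ℕ) [hp : Fact p.Prime] (N : ℕ) [NeZero N]

/-- `T_ℓ` on the Tate module is the operator of the coset system `tdmSysT` -/
theorem ihn_heckeP_T_eq (ℓ : ℕ) (hℓ : ℓ.Prime) (hℓN : ¬ ℓ ∣ N) :
    tdmHeckeP p N (CuspForm.heckeAlgebra.T hℓ hℓN (Set.notMem_empty ℓ))
      = (tdmSysT N ℓ hℓ hℓN).homPar ℤ_[p] ℤ_[p] :=
  LinearMap.ext fun φ => Subtype.ext (tdmHeckeP_T p N ℓ hℓ hℓN φ)

/-- `U_q` on the Tate module is the operator of the coset system `tdmSysU` -/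
theorem ihn_heckeP_U_eq (q : ℕ) (hq : q.Prime) (hqN : q ∣ N) :
    tdmHeckeP p N (CuspForm.heckeAlgebra.U hq hqN (Set.notMem_empty q))
      = (tdmSysU N q hqN hq.ne_zero).homPar ℤ_[p] ℤ_[p] :=
  LinearMap.ext fun φ => Subtype.ext (tdmHeckeP_U p N q hq hqN φ)

end Ops

section L1

variable (p : ℕ) [hp : Fact p.Prime] (N : ℕ) [NeZero N]
  (𝒪' : Type) [CommRing 𝒪'] [IsDomain 𝒪'] [CharZero 𝒪'] [Algebra ℤ_[p] 𝒪']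

/-- **(L1)** the link `Hom_par(Γ₀(N), 𝒪') ≃ 𝒪' ⊗ Ta_p J₀(N)` -/
noncomputable def ihnLink :
    ↥(parabolicHoms 𝒪' (Gamma0 N) 𝒪') ≃ₗ[𝒪']
      𝒪' ⊗[ℤ_[p]] ↥(parabolicHoms ℤ_[p] (Gamma0 N) ℤ_[p]) :=
  (ihnBase N ℤ_[p] 𝒪').symm

theorem ihnLink_symm_apply (x : 𝒪' ⊗[ℤ_[p]] ↥(parabolicHoms ℤ_[p] (Gamma0 N) ℤ_[p])) :
    (ihnLink p N 𝒪').symm x = ihnBase N ℤ_[p] 𝒪' x := rfl

/-- the link intertwines the operators of every coset system -/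
theorem ihnLink_homPar {ι : Type} [Fintype ι] (S : tdmCosetSys (Gamma0 N) ι)
    (c : ↥(parabolicHoms 𝒪' (Gamma0 N) 𝒪')) :
    ihnLink p N 𝒪' (S.homPar 𝒪' 𝒪' c)
      = (S.homPar ℤ_[p] ℤ_[p]).baseChange 𝒪' (ihnLink p N 𝒪' c) := by
  apply (ihnBase N ℤ_[p] 𝒪').injective
  rw [ihnBase_homPar]
  show (ihnBase N ℤ_[p] 𝒪') ((ihnBase N ℤ_[p] 𝒪').symm _) =
    S.homPar 𝒪' 𝒪' ((ihnBase N ℤ_[p] 𝒪') ((ihnBase N ℤ_[p] 𝒪').symm c))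
  rw [LinearEquiv.apply_symm_apply, LinearEquiv.apply_symm_apply]

/-- the link intertwines `T_ℓ` -/
theorem ihnLink_T (ℓ : ℕ) (hℓ : ℓ.Prime) (hℓN : ¬ ℓ ∣ N)
    (c : ↥(parabolicHoms 𝒪' (Gamma0 N) 𝒪')) :
    ihnLink p N 𝒪' ((tdmSysT N ℓ hℓ hℓN).homPar 𝒪' 𝒪' c)
      = (tdmHeckeP p N (CuspForm.heckeAlgebra.T hℓ hℓN (Set.notMem_empty ℓ))).baseChange 𝒪'
          (ihnLink p N 𝒪' c) := by
  rw [ihn_heckeP_T_eq, ihnLink_homPar]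

/-- the link intertwines `U_q` -/
theorem ihnLink_U (q : ℕ) (hq : q.Prime) (hqN : q ∣ N)
    (c : ↥(parabolicHoms 𝒪' (Gamma0 N) 𝒪')) :
    ihnLink p N 𝒪' ((tdmSysU N q hqN hq.ne_zero).homPar 𝒪' 𝒪' c)
      = (tdmHeckeP p N (CuspForm.heckeAlgebra.U hq hqN (Set.notMem_empty q))).baseChange 𝒪'
          (ihnLink p N 𝒪' c) := by
  rw [ihn_heckeP_U_eq, ihnLink_homPar]

end L1

section L2

variable (p : ℕ) [hp : Fact p.Prime] (N : ℕ) [NeZero N]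
  {𝒪' : Type} [CommRing 𝒪'] [Algebra ℤ_[p] 𝒪'] (lam : ℕ → 𝒪') (S : Finset ℕ)

/-- **the common kernel of `T_ℓ - lam ℓ`, `ℓ ∉ S`**, in `𝒪' ⊗ Ta_p J₀(N)` -/
noncomputable def ihnYT :
    Submodule 𝒪' (𝒪' ⊗[ℤ_[p]] ↥(parabolicHoms ℤ_[p] (Gamma0 N) ℤ_[p])) where
  carrier := {y | ∀ (ℓ : ℕ) (hℓ : ℓ.Prime) (hℓN : ¬ ℓ ∣ N), ℓ ∉ S →
      (tdmHeckeP p N (CuspForm.heckeAlgebra.T hℓ hℓN (Set.notMem_empty ℓ))).baseChange 𝒪' y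
        = lam ℓ • y}
  zero_mem' := fun ℓ hℓ hℓN _ => by rw [map_zero, smul_zero]
  add_mem' := by
    intro a b ha hb ℓ hℓ hℓN hℓS
    rw [map_add, ha ℓ hℓ hℓN hℓS, hb ℓ hℓ hℓN hℓS, smul_add]
  smul_mem' := by
    intro c a ha ℓ hℓ hℓN hℓS
    rw [map_smul, ha ℓ hℓ hℓN hℓS, smul_comm]

theorem mem_ihnYT {y : 𝒪' ⊗[ℤ_[p]] ↥(parabolicHoms ℤ_[p] (Gamma0 N) ℤ_[p])} :
    y ∈ ihnYT p N lam S ↔
      ∀ (ℓ : ℕ) (hℓ : ℓ.Prime) (hℓN : ¬ ℓ ∣ N), ℓ ∉ S →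
        (tdmHeckeP p N (CuspForm.heckeAlgebra.T hℓ hℓN (Set.notMem_empty ℓ))).baseChange 𝒪' y
          = lam ℓ • y :=
  Iff.rfl

/-- `Y_T` is stable under every base-changed endomorphism commuting with the `T_ℓ` -/
theorem ihnYT_stable_of_comm
    (f : Module.End ℤ_[p] ↥(parabolicHoms ℤ_[p] (Gamma0 N) ℤ_[p]))
    (hf : ∀ (ℓ : ℕ) (hℓ : ℓ.Prime) (hℓN : ¬ ℓ ∣ N), ℓ ∉ S →
      f * tdmHeckeP p N (CuspForm.heckeAlgebra.T hℓ hℓN (Set.notMem_empty ℓ))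
        = tdmHeckeP p N (CuspForm.heckeAlgebra.T hℓ hℓN (Set.notMem_empty ℓ)) * f)
    {y : 𝒪' ⊗[ℤ_[p]] ↥(parabolicHoms ℤ_[p] (Gamma0 N) ℤ_[p])} (hy : y ∈ ihnYT p N lam S) :
    f.baseChange 𝒪' y ∈ ihnYT p N lam S := by
  intro ℓ hℓ hℓN hℓS
  rw [← ihn_baseChange_comm 𝒪' (hf ℓ hℓ hℓN hℓS), hy ℓ hℓ hℓN hℓS, map_smul]

/-- `Y_T` is Galois stable -/
theorem ihnYT_stable {y : 𝒪' ⊗[ℤ_[p]] ↥(parabolicHoms ℤ_[p] (Gamma0 N) ℤ_[p])}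
    (hy : y ∈ ihnYT p N lam S) (σ : GQ) :
    (ihnGal p N σ).baseChange 𝒪' y ∈ ihnYT p N lam S :=
  ihnYT_stable_of_comm p N lam S (ihnGal p N σ)
    (fun ℓ hℓ hℓN _ => ihnGal_comm_T p N ℓ hℓ hℓN σ) hy

end L2

section L2CH

variable (p : ℕ) [hp : Fact p.Prime] (N : ℕ) [NeZero N]
  {𝒪' : Type} [CommRing 𝒪'] [IsLocalRing 𝒪'] [IsNoetherianRing 𝒪'] [Algebra ℤ_[p] 𝒪']
  (hp𝒪 : (p : 𝒪') ∈ maximalIdeal 𝒪') (lam : ℕ → 𝒪') (S : Finset ℕ) (hpS : p ∈ S)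
  (hNS : ∀ q : ℕ, q.Prime → q ∣ N → q ∈ S)
  (r : GQ →* Matrix (Fin 2) (Fin 2) 𝒪') (hcts : MatCts 𝒪' r)
  (hfrob : ∀ ℓ : ℕ, ℓ.Prime → ℓ ∉ S → ∀ P : ValuationSubring Qb, P.LiesOverPrime ℓ →
    ∀ φ : GQ, P.IsFrobeniusAt φ ℓ → (r φ).trace = lam ℓ ∧ (r φ).det = (ℓ : 𝒪'))

include hp𝒪 hpS hNS hcts hfrob in
/-- **(L2) the Cayley–Hamilton relation of `r` on `Y_T`**, for every element of the Galois group -/
theorem ihnYT_CH (g : GQ) {y : 𝒪' ⊗[ℤ_[p]] ↥(parabolicHoms ℤ_[p] (Gamma0 N) ℤ_[p])}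
    (hy : y ∈ ihnYT p N lam S) :
    (ihnGal p N g).baseChange 𝒪' ((ihnGal p N g).baseChange 𝒪' y)
      - (r g).trace • (ihnGal p N g).baseChange 𝒪' y + (r g).det • y = 0 := by
  refine ihn_CH_of_frob hp𝒪 (ihnGal p N) (ihnGal_cont p N)
    (fun g => (r g).trace) (fun g => (r g).det) (ihn_trace_det_cts r hcts)
    (ihnYT p N lam S) S ?_ g y hy
  intro ℓ hℓ hℓS P φ hP hφ z hz
  have hℓN : ¬ ℓ ∣ N := fun h => hℓS (hNS ℓ hℓ h)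
  have hℓp : ℓ ≠ p := fun h => hℓS (h ▸ hpS)
  obtain ⟨htr, hdet⟩ := hfrob ℓ hℓ hℓS P hP φ hφ
  have hz' := ihnYT_stable p N lam S hz φ
  have h1 := congrArg (fun k : Module.End ℤ_[p]
      ↥(parabolicHoms ℤ_[p] (Gamma0 N) ℤ_[p]) => k.baseChange 𝒪' z)
    (ihnGal_ES p N ℓ hℓ hℓN hℓp P hP φ hφ)
  simp only [LinearMap.baseChange_add, LinearMap.baseChange_sub, LinearMap.baseChange_smul,
    Module.End.mul_eq_comp, LinearMap.baseChange_comp, Module.End.one_eq_id,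
    LinearMap.baseChange_id, LinearMap.add_apply, LinearMap.sub_apply, LinearMap.comp_apply,
    LinearMap.smul_apply, LinearMap.id_apply, LinearMap.baseChange_zero,
    LinearMap.zero_apply] at h1
  have h2 : (ℓ : ℤ_[p]) • z = (ℓ : 𝒪') • z := by
    rw [Nat.cast_smul_eq_nsmul, Nat.cast_smul_eq_nsmul]
  show (ihnGal p N φ).baseChange 𝒪' ((ihnGal p N φ).baseChange 𝒪' z)
    - (r φ).trace • (ihnGal p N φ).baseChange 𝒪' z + (r φ).det • z = 0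
  rw [htr, hdet, ← hz' ℓ hℓ hℓN hℓS, ← h2]
  exact h1

end L2CH

section Mem

variable (p : ℕ) [hp : Fact p.Prime] (N : ℕ) [NeZero N]
  {𝒪' : Type} [CommRing 𝒪'] [IsDomain 𝒪'] [CharZero 𝒪'] [Algebra ℤ_[p] 𝒪']
  (lam : ℕ → 𝒪') (S : Finset ℕ)

/-- an eigenclass in `Hom_par(Γ₀(N), 𝒪')` gives an element of `Y_T` -/
theorem ihnLink_mem_YT (c : ↥(parabolicHoms 𝒪' (Gamma0 N) 𝒪'))
    (hcT : ∀ (ℓ : ℕ) (hℓ : ℓ.Prime) (hℓN : ¬ ℓ ∣ N), ℓ ∉ S →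
      (tdmSysT N ℓ hℓ hℓN).homPar 𝒪' 𝒪' c = lam ℓ • c) :
    ihnLink p N 𝒪' c ∈ ihnYT p N lam S := by
  intro ℓ hℓ hℓN hℓS
  rw [← ihnLink_T, hcT ℓ hℓ hℓN hℓS, map_smul]

end Mem

end Fermat.Agent.Ihara
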