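/-
IHARA / Nf (helper4), part 9: **locality of the commutative algebra generated by a local algebra and
a `p`-group** (for the joint eigenvectors of the Hecke ring and the diamond operators, package (G)).

* `ihn_isLocalRing_of_scalar_add_rad` : a non-trivial finite commutative algebra `T` over a local ring
  `𝒪` in which every element is a scalar plus an element of the radical of `𝔪_𝒪 T` is local;
* `ihn_isLocalRing_of_gen` : `T` generated by the image of a local `𝒪`-algebra `A` (with residue field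
  that of `𝒪` and `𝔪_A ^ k ⊆ 𝔪_𝒪 A`) and the image of a group all of whose elements have `p`-power
  order (`p ∈ 𝔪_𝒪`) is local, and `A → T` maps `𝔪_A` into `𝔪_T`.
-/
import Mathlib

set_option autoImplicit false
set_option linter.unusedSectionVars false
set_option linter.unusedVariables false
set_option linter.style.haveILetI false

open IsLocalRing

namespace Fermat.Agent.Ihara

section Rad

variable {𝒪 : Type*} [CommRing 𝒪] [IsLocalRing 𝒪]
  {T : Type*} [CommRing T] [Algebra 𝒪 T] [Module.Finite 𝒪 T]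

/-- `𝔪_𝒪 T` is contained in the Jacobson radical of a finite algebra -/
theorem ihn_map_le_jacobson :
    (maximalIdeal 𝒪).map (algebraMap 𝒪 T) ≤ Ideal.jacobson (⊥ : Ideal T) := by
  haveI : Algebra.IsIntegral 𝒪 T := Algebra.IsIntegral.of_finite 𝒪 T
  refine le_sInf ?_
  rintro 𝔫 ⟨-, h𝔫⟩
  haveI := h𝔫
  have hmax : (𝔫.comap (algebraMap 𝒪 T)).IsMaximal :=
    Ideal.isMaximal_comap_of_isIntegral_of_isMaximal 𝔫
  rw [Ideal.map_le_iff_le_comap, IsLocalRing.eq_maximalIdeal hmax]

/-- the radical of `𝔪_𝒪 T` is contained in the Jacobson radical -/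
theorem ihn_radical_le_jacobson :
    ((maximalIdeal 𝒪).map (algebraMap 𝒪 T)).radical ≤ Ideal.jacobson (⊥ : Ideal T) := by
  refine Ideal.radical_le_jacobson.trans ?_
  calc ((maximalIdeal 𝒪).map (algebraMap 𝒪 T)).jacobson
      ≤ (Ideal.jacobson (⊥ : Ideal T)).jacobson := Ideal.jacobson_mono ihn_map_le_jacobson
    _ = Ideal.jacobson (⊥ : Ideal T) := Ideal.jacobson_idem

variable [Nontrivial T]

/-- **a finite commutative algebra in which every element is a scalar plus a topologically nilpotent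
element is local** -/
theorem ihn_isLocalRing_of_scalar_add_rad
    (h : ∀ t : T, ∃ c : 𝒪,
      t - algebraMap 𝒪 T c ∈ ((maximalIdeal 𝒪).map (algebraMap 𝒪 T)).radical) :
    IsLocalRing T ∧ ∀ t : T, t ∈ ((maximalIdeal 𝒪).map (algebraMap 𝒪 T)).radical → ¬ IsUnit t := by
  set J : Ideal T := ((maximalIdeal 𝒪).map (algebraMap 𝒪 T)).radical with hJ
  have hJjac : J ≤ Ideal.jacobson (⊥ : Ideal T) := ihn_radical_le_jacobson
  have hJtop : J ≠ ⊤ := by
    intro h1
    have h2 : (1 : T) ∈ Ideal.jacobson (⊥ : Ideal T) := hJjac (h1 ▸ Submodule.mem_top)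
    have h3 := Ideal.mem_jacobson_bot.mp h2 (-1)
    rw [mul_neg, mul_one, neg_add_cancel] at h3
    exact not_isUnit_zero h3
  have hnu : ∀ t : T, t ∈ J → ¬ IsUnit t := fun t ht hu =>
    hJtop (Ideal.eq_top_of_isUnit_mem _ ht hu)
  have hdich : ∀ t : T, IsUnit t ∨ t ∈ J := by
    intro t
    obtain ⟨c, hc⟩ := h t
    by_cases hcu : IsUnit c
    · left
      have h1 : IsUnit (algebraMap 𝒪 T c) := hcu.map _
      obtain ⟨u, hu⟩ := h1
      have h2 := Ideal.mem_jacobson_bot.mp (hJjac hc) (↑u⁻¹ : T)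
      have h3 : t = (u : T) * ((t - algebraMap 𝒪 T c) * (↑u⁻¹ : T) + 1) := by
        rw [mul_add, mul_one, mul_comm (t - _) _, ← mul_assoc, Units.mul_inv, one_mul, hu]
        ring
      rw [h3]
      exact u.isUnit.mul h2
    · right
      have h1 : algebraMap 𝒪 T c ∈ J :=
        Ideal.le_radical (Ideal.mem_map_of_mem _ ((IsLocalRing.mem_maximalIdeal c).mpr hcu))
      have := J.add_mem hc h1
      rwa [sub_add_cancel] at this
  refine ⟨IsLocalRing.of_nonunits_add ?_, hnu⟩
  intro a b ha hb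
  have ha' : a ∈ J := (hdich a).resolve_left ha
  have hb' : b ∈ J := (hdich b).resolve_left hb
  exact hnu _ (J.add_mem ha' hb')

end Rad

section Gen

variable {𝒪 : Type*} [CommRing 𝒪] [IsLocalRing 𝒪]
  {T : Type*} [CommRing T] [Algebra 𝒪 T] [Module.Finite 𝒪 T] [Nontrivial T]
  {A : Type*} [CommRing A] [IsLocalRing A] [Algebra 𝒪 A]
  {G : Type*} [Group G]

/-- **the algebra generated by a local algebra and a `p`-group is local** -/
theorem ihn_isLocalRing_of_gen {p : ℕ} (hp : p.Prime) (hp𝒪 : (p : 𝒪) ∈ maximalIdeal 𝒪)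
    (hres : Function.Surjective (residue A ∘ algebraMap 𝒪 A))
    (hA : ∃ k : ℕ, maximalIdeal A ^ k ≤ (maximalIdeal 𝒪).map (algebraMap 𝒪 A))
    (hG : ∀ g : G, ∃ c : ℕ, g ^ (p ^ c) = 1)
    (ρ : A →ₐ[𝒪] T) (x : G →* T)
    (hgen : Algebra.adjoin 𝒪 (Set.range ρ ∪ Set.range x) = ⊤) :
    IsLocalRing T ∧ ∀ m ∈ maximalIdeal A, ¬ IsUnit (ρ m) := by
  set J : Ideal T := ((maximalIdeal 𝒪).map (algebraMap 𝒪 T)).radical with hJ
  -- the maximal ideal of `A` goes to `J`
  have hρm : ∀ m ∈ maximalIdeal A, ρ m ∈ J := by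
    intro m hm
    obtain ⟨k, hk⟩ := hA
    refine ⟨k, ?_⟩
    have h1 : m ^ k ∈ (maximalIdeal 𝒪).map (algebraMap 𝒪 A) := hk (Ideal.pow_mem_pow hm k)
    have h2 : (ρ : A →+* T) (m ^ k) ∈ ((maximalIdeal 𝒪).map (algebraMap 𝒪 A)).map (ρ : A →+* T) :=
      Ideal.mem_map_of_mem _ h1
    rw [Ideal.map_map] at h2
    have h3 : (ρ : A →+* T).comp (algebraMap 𝒪 A) = algebraMap 𝒪 T := ρ.comp_algebraMap
    rw [h3, map_pow] at h2
    exact h2
  -- the group goes to `1 + J`
  have hxg : ∀ g : G, x g - 1 ∈ J := by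
    intro g
    obtain ⟨c, hc⟩ := hG g
    refine ⟨p ^ c, ?_⟩
    obtain ⟨r, hr⟩ := exists_add_pow_prime_pow_eq hp (x g - 1) 1 c
    rw [sub_add_cancel, one_pow, ← map_pow, hc, map_one] at hr
    have h1 : (x g - 1) ^ p ^ c = (p : T) * (-((x g - 1) * r)) := by linear_combination -hr
    rw [h1]
    refine Ideal.mul_mem_right _ _ ?_
    have h2 : (p : T) = algebraMap 𝒪 T (p : 𝒪) := (map_natCast _ p).symm
    rw [h2]
    exact Ideal.mem_map_of_mem _ hp𝒪
  -- every element is a scalar plus an element of `J`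
  have key : ∀ t : T, ∃ c : 𝒪, t - algebraMap 𝒪 T c ∈ J := by
    intro t
    have ht : t ∈ Algebra.adjoin 𝒪 (Set.range ρ ∪ Set.range x) := hgen ▸ Algebra.mem_top
    induction ht using Algebra.adjoin_induction with
    | mem t ht =>
      rcases ht with ⟨a, rfl⟩ | ⟨g, rfl⟩
      · obtain ⟨c, hc⟩ := hres (residue A a)
        refine ⟨c, ?_⟩
        have h1 : a - algebraMap 𝒪 A c ∈ maximalIdeal A := by
          rw [← residue_eq_zero_iff, map_sub, sub_eq_zero]
          exact hc.symm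
        have h2 := hρm _ h1
        rwa [map_sub, AlgHom.commutes] at h2
      · refine ⟨1, ?_⟩
        rw [map_one]
        exact hxg g
    | algebraMap r =>
      exact ⟨r, by rw [sub_self]; exact J.zero_mem⟩
    | add t t' _ _ ht ht' =>
      obtain ⟨c, hc⟩ := ht
      obtain ⟨c', hc'⟩ := ht'
      refine ⟨c + c', ?_⟩
      have : t + t' - algebraMap 𝒪 T (c + c') = (t - algebraMap 𝒪 T c) + (t' - algebraMap 𝒪 T c') := by
        rw [map_add]; ring
      rw [this]
      exact J.add_mem hc hc'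
    | mul t t' _ _ ht ht' =>
      obtain ⟨c, hc⟩ := ht
      obtain ⟨c', hc'⟩ := ht'
      refine ⟨c * c', ?_⟩
      have : t * t' - algebraMap 𝒪 T (c * c')
          = (t - algebraMap 𝒪 T c) * t' + algebraMap 𝒪 T c * (t' - algebraMap 𝒪 T c') := by
        rw [map_mul]; ring
      rw [this]
      exact J.add_mem (J.mul_mem_right _ hc) (J.mul_mem_left _ hc')
  obtain ⟨h1, h2⟩ := ihn_isLocalRing_of_scalar_add_rad key
  exact ⟨h1, fun m hm => h2 _ (hρm m hm)⟩

end Gen

end Fermat.Agent.Ihara
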