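/-
IHARA / Nf (helper4), part 10: **joint eigenvectors of the Hecke ring and the diamond operators** on a
stable submodule, over a point of the Hecke ring (for package (G) [WL]; also usable for [TC]).

`𝒪` a complete discrete valuation ring of characteristic zero with finite residue field of
characteristic `p`; `A` a local `𝒪`-algebra with the residue field of `𝒪` and `𝔪_A ^ k ⊆ 𝔪_𝒪 A`
(e.g. finite over `𝒪`), acting on the finite torsion-free `𝒪`-module `M` through `ρM`; `G` a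
commutative group all of whose elements have `p`-power order acting through `x`, commuting with `A`;
`W ≠ 0` a submodule stable under `A` and `G`.  Then there are a point `P` of `A`, a character
`χ : G → P.R` and a non-zero `y ∈ P.R ⊗ W ⊆ P.R ⊗ M` with `t y = P.ψ t • y`, `g y = χ g • y`.
-/
import Mathlib
import Fermat.Agent.Lib.Ihara.Img.Points
import Fermat.Agent.Lib.Ihara.Nf.Local

set_option autoImplicit false
set_option linter.unusedSectionVars false
set_option linter.unusedVariables false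
set_option linter.style.haveILetI false

open IsLocalRing
open scoped TensorProduct

namespace Fermat.Agent.Ihara

open Fermat.Agent.Alpha (AlpqPoint)

section Aux

variable {𝒪 : Type} [CommRing 𝒪] [IsDomain 𝒪] [IsDiscreteValuationRing 𝒪]
  [IsAdicComplete (maximalIdeal 𝒪) 𝒪] [Finite (ResidueField 𝒪)] [CharZero 𝒪]
  {A : Type} [CommRing A] [IsLocalRing A] [Algebra 𝒪 A]
  {G : Type*} [CommGroup G]

/-- the finite-level `𝔪_A ^ k ⊆ 𝔪_𝒪 A` for a finite local algebra -/
theorem ihn_exists_pow_le_map [Module.Finite 𝒪 A] :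
    ∃ k : ℕ, maximalIdeal A ^ k ≤ (maximalIdeal 𝒪).map (algebraMap 𝒪 A) := by
  haveI : IsArtinianRing (A ⧸ (maximalIdeal 𝒪).map (algebraMap 𝒪 A)) :=
    ihd_isArtinianRing_quotient 𝒪 A
  exact exists_maximalIdeal_pow_le_of_isArtinianRing_quotient _

/-- joint eigenvectors for a commutative algebra generated by `A` and `G` acting faithfully -/
theorem ihn_exists_joint_eigen_aux {T : Type} [CommRing T] [Algebra 𝒪 T] [Module.Finite 𝒪 T]
    {W : Type*} [AddCommGroup W] [Module 𝒪 W] [Module.Finite 𝒪 W] [Module.Free 𝒪 W] [Nontrivial W]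
    (act : T →ₐ[𝒪] Module.End 𝒪 W) (hinj : Function.Injective act)
    {p : ℕ} (hp : p.Prime) (hp𝒪 : (p : 𝒪) ∈ maximalIdeal 𝒪)
    (hres : Function.Surjective (residue A ∘ algebraMap 𝒪 A))
    (hA : ∃ k : ℕ, maximalIdeal A ^ k ≤ (maximalIdeal 𝒪).map (algebraMap 𝒪 A))
    (hG : ∀ g : G, ∃ c : ℕ, g ^ (p ^ c) = 1)
    (ρ : A →ₐ[𝒪] T) (x : G →* T)
    (hgen : Algebra.adjoin 𝒪 (Set.range ρ ∪ Set.range x) = ⊤) :
    ∃ (P : AlpqPoint 𝒪 A) (χ : G →* P.R) (y : P.R ⊗[𝒪] W), y ≠ 0 ∧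
      (∀ t, (act (ρ t)).baseChange P.R y = P.ψ t • y) ∧
      (∀ g, (act (x g)).baseChange P.R y = χ g • y) := by
  haveI : Nontrivial T := by
    refine ⟨⟨1, 0, fun h => ?_⟩⟩
    have h1 := congrArg act h
    rw [map_one, map_zero] at h1
    obtain ⟨w, hw⟩ := exists_ne (0 : W)
    exact hw (by simpa using LinearMap.congr_fun h1 w)
  obtain ⟨hloc, hnu⟩ := ihn_isLocalRing_of_gen hp hp𝒪 hres hA hG ρ x hgen
  haveI := hloc
  obtain ⟨P'', y, hy0, hy⟩ := ihi_exists_point_eigen act hinj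
  haveI := P''.isLocalHom_ψ
  have hlocal : IsLocalHom ((P''.ψ.comp ρ : A →ₐ[𝒪] P''.R) : A →+* P''.R) := by
    refine ⟨fun a ha => ?_⟩
    have h1 : IsUnit ((P''.ψ : T →+* P''.R) (ρ a)) := ha
    have h2 : IsUnit (ρ a) := isUnit_of_map_unit (P''.ψ : T →+* P''.R) _ h1
    by_contra hna
    exact hnu a ((IsLocalRing.mem_maximalIdeal a).mpr hna) h2
  refine ⟨{ R := P''.R, inj := P''.inj, ψ := P''.ψ.comp ρ, isLocalHom_ψ := hlocal },
    ((P''.ψ : T →+* P''.R) : T →* P''.R).comp x, y, hy0, fun t => hy (ρ t), fun g => hy (x g)⟩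

end Aux

section Restrict

variable {𝒪 : Type*} [CommRing 𝒪] {M : Type*} [AddCommGroup M] [Module 𝒪 M]
  {A : Type*} [CommRing A] [Algebra 𝒪 A] {G : Type*} [Monoid G]

/-- the restriction of an algebra of endomorphisms to a stable submodule -/
def ihnRestrictAlg (ρM : A →ₐ[𝒪] Module.End 𝒪 M) (W : Submodule 𝒪 M)
    (hW : ∀ t, ∀ w ∈ W, ρM t w ∈ W) : A →ₐ[𝒪] Module.End 𝒪 ↥W where
  toFun t := (ρM t).restrict (hW t)
  map_one' := by
    refine LinearMap.ext fun w => Subtype.ext ?_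
    simp
  map_mul' t t' := by
    refine LinearMap.ext fun w => Subtype.ext ?_
    simp [LinearMap.restrict_coe_apply]
  map_zero' := by
    refine LinearMap.ext fun w => Subtype.ext ?_
    simp [LinearMap.restrict_coe_apply]
  map_add' t t' := by
    refine LinearMap.ext fun w => Subtype.ext ?_
    simp [LinearMap.restrict_coe_apply]
  commutes' c := by
    refine LinearMap.ext fun w => Subtype.ext ?_
    simp [LinearMap.restrict_coe_apply, Module.algebraMap_end_apply]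

@[simp] theorem ihnRestrictAlg_coe (ρM : A →ₐ[𝒪] Module.End 𝒪 M) (W : Submodule 𝒪 M)
    (hW : ∀ t, ∀ w ∈ W, ρM t w ∈ W) (t : A) (w : ↥W) :
    ((ihnRestrictAlg ρM W hW t w : ↥W) : M) = ρM t w := rfl

/-- the restriction of a monoid of endomorphisms to a stable submodule -/
def ihnRestrictMon (x : G →* Module.End 𝒪 M) (W : Submodule 𝒪 M)
    (hW : ∀ g, ∀ w ∈ W, x g w ∈ W) : G →* Module.End 𝒪 ↥W where
  toFun g := (x g).restrict (hW g)
  map_one' := by
    refine LinearMap.ext fun w => Subtype.ext ?_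
    simp
  map_mul' g g' := by
    refine LinearMap.ext fun w => Subtype.ext ?_
    simp [LinearMap.restrict_coe_apply]

@[simp] theorem ihnRestrictMon_coe (x : G →* Module.End 𝒪 M) (W : Submodule 𝒪 M)
    (hW : ∀ g, ∀ w ∈ W, x g w ∈ W) (g : G) (w : ↥W) :
    ((ihnRestrictMon x W hW g w : ↥W) : M) = x g w := rfl

/-- base change of a restriction -/
theorem ihn_baseChange_restrict (R : Type*) [CommRing R] [Algebra 𝒪 R] (f : Module.End 𝒪 M)
    (W : Submodule 𝒪 M) (hW : ∀ w ∈ W, f w ∈ W) (y : R ⊗[𝒪] ↥W) :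
    f.baseChange R (W.subtype.baseChange R y) = W.subtype.baseChange R ((f.restrict hW).baseChange R y) := by
  have h1 : f ∘ₗ W.subtype = W.subtype ∘ₗ f.restrict hW := by
    ext w
    rfl
  have h2 := congrArg (fun k : ↥W →ₗ[𝒪] M => k.baseChange R y) h1
  simpa only [LinearMap.baseChange_comp, LinearMap.comp_apply] using h2

end Restrict

section Joint

variable {𝒪 : Type} [CommRing 𝒪] [IsDomain 𝒪] [IsDiscreteValuationRing 𝒪]
  [IsAdicComplete (maximalIdeal 𝒪) 𝒪] [Finite (ResidueField 𝒪)] [CharZero 𝒪]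
  {M : Type} [AddCommGroup M] [Module 𝒪 M] [Module.Finite 𝒪 M] [Module.IsTorsionFree 𝒪 M]
  {A : Type} [CommRing A] [IsLocalRing A] [Algebra 𝒪 A]
  {G : Type*} [CommGroup G]

/-- **joint eigenvectors of `A` and `G` in a stable submodule, over a point of `A`** -/
theorem ihn_exists_joint_eigen {p : ℕ} (hp : p.Prime) (hp𝒪 : (p : 𝒪) ∈ maximalIdeal 𝒪)
    (hres : Function.Surjective (residue A ∘ algebraMap 𝒪 A))
    (hA : ∃ k : ℕ, maximalIdeal A ^ k ≤ (maximalIdeal 𝒪).map (algebraMap 𝒪 A))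
    (ρM : A →ₐ[𝒪] Module.End 𝒪 M)
    (hG : ∀ g : G, ∃ c : ℕ, g ^ (p ^ c) = 1) (x : G →* Module.End 𝒪 M)
    (hcomm : ∀ t g, Commute (ρM t) (x g))
    (W : Submodule 𝒪 M) (hW : W ≠ ⊥)
    (hWA : ∀ t, ∀ w ∈ W, ρM t w ∈ W) (hWG : ∀ g, ∀ w ∈ W, x g w ∈ W) :
    ∃ (P : AlpqPoint 𝒪 A) (χ : G →* P.R) (y : P.R ⊗[𝒪] M), y ≠ 0 ∧
      y ∈ LinearMap.range (W.subtype.baseChange P.R) ∧
      (∀ t, (ρM t).baseChange P.R y = P.ψ t • y) ∧
      (∀ g, (x g).baseChange P.R y = χ g • y) := by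
  classical
  set ρW := ihnRestrictAlg ρM W hWA with hρW
  set xW := ihnRestrictMon x W hWG with hxW
  set s : Set (Module.End 𝒪 ↥W) := Set.range ρW ∪ Set.range xW with hs
  have hcs : ∀ a ∈ s, ∀ b ∈ s, a * b = b * a := by
    rintro a (⟨t, rfl⟩ | ⟨g, rfl⟩) b (⟨t', rfl⟩ | ⟨g', rfl⟩)
    · rw [← map_mul, ← map_mul, mul_comm]
    · refine LinearMap.ext fun w => Subtype.ext ?_
      exact LinearMap.congr_fun (hcomm t g').eq w
    · refine LinearMap.ext fun w => Subtype.ext ?_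
      exact (LinearMap.congr_fun (hcomm t' g).eq w).symm
    · rw [← map_mul, ← map_mul, mul_comm]
  letI : CommRing ↥(Algebra.adjoin 𝒪 s) := Algebra.adjoinCommRingOfComm 𝒪 hcs
  haveI : Module.IsTorsionFree 𝒪 ↥W := inferInstance
  haveI : Module.Free 𝒪 ↥W := Module.free_of_finite_type_torsion_free'
  haveI : Nontrivial ↥W := Submodule.nontrivial_iff_ne_bot.mpr hW
  haveI : Module.Finite 𝒪 ↥(Algebra.adjoin 𝒪 s) :=
    Module.Finite.of_injective (Algebra.adjoin 𝒪 s).val.toLinearMap Subtype.val_injective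
  -- the two maps into the adjoin
  let ρ' : A →ₐ[𝒪] ↥(Algebra.adjoin 𝒪 s) :=
    ρW.codRestrict (Algebra.adjoin 𝒪 s) fun t => Algebra.subset_adjoin (Or.inl ⟨t, rfl⟩)
  let x' : G →* ↥(Algebra.adjoin 𝒪 s) :=
    { toFun := fun g => ⟨xW g, Algebra.subset_adjoin (Or.inr ⟨g, rfl⟩)⟩
      map_one' := Subtype.ext (map_one xW)
      map_mul' := fun g g' => Subtype.ext (map_mul xW g g') }
  have hgen : Algebra.adjoin 𝒪 (Set.range ρ' ∪ Set.range x') = ⊤ := by
    have h1 : (Set.range ρ' ∪ Set.range x' : Set ↥(Algebra.adjoin 𝒪 s))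
        = ((↑) : ↥(Algebra.adjoin 𝒪 s) → Module.End 𝒪 ↥W) ⁻¹' s := by
      ext ⟨f, hf⟩
      simp only [Set.mem_union, Set.mem_range, Set.mem_preimage, hs]
      constructor
      · rintro (⟨t, ht⟩ | ⟨g, hg⟩)
        · exact Or.inl ⟨t, congrArg Subtype.val ht⟩
        · exact Or.inr ⟨g, congrArg Subtype.val hg⟩
      · rintro (⟨t, ht⟩ | ⟨g, hg⟩)
        · exact Or.inl ⟨t, Subtype.ext ht⟩
        · exact Or.inr ⟨g, Subtype.ext hg⟩
    rw [h1]
    exact Algebra.adjoin_adjoin_coe_preimage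
  obtain ⟨P, χ, y, hy0, hyA, hyG⟩ := ihn_exists_joint_eigen_aux (Algebra.adjoin 𝒪 s).val
    Subtype.val_injective hp hp𝒪 hres hA hG ρ' x' hgen
  haveI : Module.IsTorsionFree 𝒪 P.R := Module.isTorsionFree_iff_algebraMap_injective.mpr P.inj
  haveI : Module.Free 𝒪 P.R := Module.free_of_finite_type_torsion_free'
  have hinj : Function.Injective (W.subtype.baseChange P.R) := by
    rw [LinearMap.baseChange_eq_ltensor]
    exact Module.Flat.lTensor_preserves_injective_linearMap _ W.injective_subtype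
  refine ⟨P, χ, W.subtype.baseChange P.R y, fun h => hy0 (hinj (by rw [h, map_zero])), ⟨y, rfl⟩,
    fun t => ?_, fun g => ?_⟩
  · rw [ihn_baseChange_restrict P.R (ρM t) W (hWA t), ← map_smul]
    exact congrArg _ (hyA t)
  · rw [ihn_baseChange_restrict P.R (x g) W (hWG g), ← map_smul]
    exact congrArg _ (hyG g)

end Joint

end Fermat.Agent.Ihara
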