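/-
IHARA / Nf (helper4), part 11: **package (G) [WL]** of helper2's carve-up of [Asm] — the field
`(WL)` of `IhaHecke` (`Lib/Ihara/Asm/Level.lean`):
`Φ_p(x γ) v = 0 → ρM aq v = v → v = 0`,
reduced to the statement at the joint eigen-points of the Hecke ring `A` and the diamond group `G`:

  `hpt` : at every point `P` of `A` with a non-zero joint eigenvector `y ∈ P.R ⊗ M` of `A` (eigensystem
  `P.ψ`) and `G` (character `χ`), `χ γ ≠ 1 → P.ψ aq ≠ 1`

(which is (C) + (E) + (F2): `χ γ ≠ 1` gives `tr r(σ) ≠ 2` at the point by `ihn_point_trace_ne_two`,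
and `tr r(σ) = aq + aq⁻¹` by `ihta_AQ`).
-/
import Mathlib
import Fermat.Agent.Lib.Ihara.Nf.Joint

set_option autoImplicit false
set_option linter.unusedSectionVars false
set_option linter.unusedVariables false
set_option linter.style.haveILetI false

open IsLocalRing
open scoped TensorProduct

namespace Fermat.Agent.Ihara

open Fermat.Agent.Alpha (AlpqPoint)

section WL

variable {𝒪 : Type} [CommRing 𝒪] [IsDomain 𝒪] [IsDiscreteValuationRing 𝒪]
  [IsAdicComplete (maximalIdeal 𝒪) 𝒪] [Finite (ResidueField 𝒪)] [CharZero 𝒪]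
  {M : Type} [AddCommGroup M] [Module 𝒪 M] [Module.Finite 𝒪 M] [Module.IsTorsionFree 𝒪 M]
  {A : Type} [CommRing A] [IsLocalRing A] [Algebra 𝒪 A]
  {G : Type*} [CommGroup G]

/-- base change of an endomorphism vanishing on a submodule vanishes on the base change of the
submodule -/
theorem ihn_baseChange_eq_zero_of_range (R : Type*) [CommRing R] [Algebra 𝒪 R]
    (f : Module.End 𝒪 M) (W : Submodule 𝒪 M) (hW : ∀ w ∈ W, f w = 0) (y : R ⊗[𝒪] M)
    (hy : y ∈ LinearMap.range (W.subtype.baseChange R)) : f.baseChange R y = 0 := by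
  obtain ⟨z, rfl⟩ := hy
  have h1 : f ∘ₗ W.subtype = 0 := by
    ext w
    exact hW w w.2
  have h2 := congrArg (fun k : ↥W →ₗ[𝒪] M => k.baseChange R z) h1
  simpa only [LinearMap.baseChange_comp, LinearMap.comp_apply, LinearMap.baseChange_zero,
    LinearMap.zero_apply] using h2

/-- **(G) [WL]** -/
theorem ihn_WL {p : ℕ} (hp : p.Prime) (hp𝒪 : (p : 𝒪) ∈ maximalIdeal 𝒪)
    (hres : Function.Surjective (residue A ∘ algebraMap 𝒪 A))
    (hA : ∃ k : ℕ, maximalIdeal A ^ k ≤ (maximalIdeal 𝒪).map (algebraMap 𝒪 A))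
    (ρM : A →ₐ[𝒪] Module.End 𝒪 M)
    (hG : ∀ g : G, ∃ c : ℕ, g ^ (p ^ c) = 1) (x : G →* Module.End 𝒪 M)
    (hcomm : ∀ t g, Commute (ρM t) (x g))
    (γ : G) (aq : A)
    (hpt : ∀ (P : AlpqPoint 𝒪 A) (χ : G →* P.R) (y : P.R ⊗[𝒪] M), y ≠ 0 →
      (∀ t, (ρM t).baseChange P.R y = P.ψ t • y) → (∀ g, (x g).baseChange P.R y = χ g • y) →
      χ γ ≠ 1 → P.ψ aq ≠ 1)
    (v : M) (h1 : (∑ k ∈ Finset.range p, x γ ^ k : Module.End 𝒪 M) v = 0)
    (h2 : ρM aq v = v) : v = 0 := by
  classical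
  by_contra hv
  set Φ : Module.End 𝒪 M := ∑ k ∈ Finset.range p, x γ ^ k with hΦ
  set W : Submodule 𝒪 M := LinearMap.ker Φ ⊓ LinearMap.ker (ρM aq - 1) with hW
  have hΦx : ∀ g, Commute (x g) Φ := by
    intro g
    rw [hΦ]
    refine Commute.sum_right _ _ _ fun k _ => ?_
    rw [← map_pow, Commute, SemiconjBy, ← map_mul, ← map_mul, mul_comm]
  have hΦA : ∀ t, Commute (ρM t) Φ := by
    intro t
    rw [hΦ]
    refine Commute.sum_right _ _ _ fun k _ => ?_
    exact (hcomm t γ).pow_right k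
  have haqA : ∀ t, Commute (ρM t) (ρM aq - 1) := by
    intro t
    refine Commute.sub_right ?_ (Commute.one_right _)
    rw [Commute, SemiconjBy, ← map_mul, ← map_mul, mul_comm]
  have haqx : ∀ g, Commute (x g) (ρM aq - 1) := fun g =>
    Commute.sub_right (hcomm aq g).symm (Commute.one_right _)
  have hstab : ∀ f : Module.End 𝒪 M, Commute f Φ → Commute f (ρM aq - 1) → ∀ w ∈ W, f w ∈ W := by
    intro f hf1 hf2 w hw
    rw [hW, Submodule.mem_inf, LinearMap.mem_ker, LinearMap.mem_ker] at hw ⊢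
    constructor
    · rw [← Module.End.mul_apply, ← hf1.eq, Module.End.mul_apply, hw.1, map_zero]
    · rw [← Module.End.mul_apply, ← hf2.eq, Module.End.mul_apply, hw.2, map_zero]
  have hvW : v ∈ W := by
    rw [hW, Submodule.mem_inf, LinearMap.mem_ker, LinearMap.mem_ker]
    refine ⟨h1, ?_⟩
    rw [LinearMap.sub_apply, h2, Module.End.one_apply, sub_self]
  have hWne : W ≠ ⊥ := fun h => hv (by rw [h, Submodule.mem_bot] at hvW; exact hvW)
  obtain ⟨P, χ, y, hy0, hyW, hyA, hyG⟩ := ihn_exists_joint_eigen hp hp𝒪 hres hA ρM hG x hcomm W hWne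
    (fun t => hstab _ (hΦA t) (haqA t)) (fun g => hstab _ (hΦx g) (haqx g))
  -- `P.R ⊗ M` has no torsion
  haveI : Module.Free 𝒪 M := Module.free_of_finite_type_torsion_free'
  haveI : Module.IsTorsionFree P.R (P.R ⊗[𝒪] M) := inferInstance
  have hcancel : ∀ c : P.R, c • y = 0 → c = 0 := fun c hc =>
    (smul_eq_zero.mp hc).resolve_right hy0
  -- the two relations at the point
  have hΦy : Φ.baseChange P.R y = 0 :=
    ihn_baseChange_eq_zero_of_range P.R Φ W (fun w hw => by
      rw [hW, Submodule.mem_inf, LinearMap.mem_ker] at hw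
      exact hw.1) y hyW
  have haqy : (ρM aq - 1).baseChange P.R y = 0 :=
    ihn_baseChange_eq_zero_of_range P.R (ρM aq - 1) W (fun w hw => by
      rw [hW, Submodule.mem_inf, LinearMap.mem_ker, LinearMap.mem_ker] at hw
      exact hw.2) y hyW
  -- powers of `x γ`
  have hpow : ∀ k : ℕ, (x γ ^ k).baseChange P.R y = χ γ ^ k • y := by
    intro k
    rw [← map_pow, hyG, map_pow]
  have hsum : (∑ k ∈ Finset.range p, χ γ ^ k) • y = 0 := by
    rw [Finset.sum_smul, ← hΦy, hΦ]
    rw [show (∑ k ∈ Finset.range p, x γ ^ k : Module.End 𝒪 M).baseChange P.R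
      = ∑ k ∈ Finset.range p, (x γ ^ k).baseChange P.R from
        map_sum (LinearMap.baseChangeHom 𝒪 P.R M M) _ _, LinearMap.sum_apply]
    exact Finset.sum_congr rfl fun k _ => (hpow k).symm
  have hχ : χ γ ≠ 1 := by
    intro h
    have h3 := hcancel _ hsum
    rw [h] at h3
    simp only [one_pow, Finset.sum_const, Finset.card_range, nsmul_eq_mul, mul_one] at h3
    exact hp.ne_zero (Nat.cast_eq_zero.mp h3)
  apply hpt P χ y hy0 hyA hyG hχ
  rw [LinearMap.baseChange_sub, LinearMap.sub_apply, hyA, Module.End.one_eq_id,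
    LinearMap.baseChange_id, LinearMap.id_apply] at haqy
  have h4 : (P.ψ aq - 1) • y = 0 := by
    have h5 : (P.ψ aq - 1) • y = P.ψ aq • y - y := by module
    rw [h5]
    exact haqy
  exact sub_eq_zero.mp (hcancel _ h4)

end WL

end Fermat.Agent.Ihara
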