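/-
IHARA / Nf (helper4), part 13: **the joint eigen-points of the Hecke ring and the diamond group are
jointly injective on the Hecke ring** (for the [TC] wiring: the family `ψ i` of helper5's `ihta_TC`).

`A` a reduced local `𝒪`-algebra, finite over `𝒪`, acting faithfully on the finite torsion-free
`𝒪`-module `M`, `G` a commutative group of `p`-power-order elements acting on `M` and commuting with
`A`.  For every `t ≠ 0` in `A` there are a point `P` of `A`, a character `χ : G → P.R` and a non-zero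
joint eigenvector `y ∈ P.R ⊗ M` with `P.ψ t ≠ 0`.

Proof: a minimal prime `𝔭 ∌ t`; `M[𝔭] ≠ 0` (there is `s ∉ 𝔭` with `s 𝔭 = 0`, and `A` acts faithfully);
a joint eigenvector in `M[𝔭]` has `ker P.ψ ⊇ 𝔭`, hence `= 𝔭` because `A ⧸ 𝔭` is a domain integral over
`𝒪` and `ker P.ψ ∩ 𝒪 = 0`.
-/
import Mathlib
import Fermat.Agent.Lib.Ihara.Nf.WL

set_option autoImplicit false
set_option linter.unusedSectionVars false
set_option linter.unusedVariables false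
set_option linter.style.haveILetI false

open IsLocalRing
open scoped TensorProduct

namespace Fermat.Agent.Ihara

open Fermat.Agent.Alpha (AlpqPoint)

section Prime

variable {A : Type*} [CommRing A] [IsNoetherianRing A] [IsReduced A]

/-- in a reduced Noetherian ring every non-zero element avoids a minimal prime `𝔭`, and `𝔭` is killed
by an element outside `𝔭` -/
theorem ihn_exists_minimalPrime_killer (t : A) (ht : t ≠ 0) :
    ∃ 𝔭 : Ideal A, 𝔭.IsPrime ∧ t ∉ 𝔭 ∧ ∃ s : A, s ∉ 𝔭 ∧ ∀ a ∈ 𝔭, s * a = 0 := by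
  classical
  have hnil : ∀ z : A, (∀ 𝔮 ∈ minimalPrimes A, z ∈ 𝔮) → z = 0 := by
    intro z hz
    have h1 : z ∈ sInf (⊥ : Ideal A).minimalPrimes := by
      rw [Submodule.mem_sInf]
      exact hz
    rw [Ideal.sInf_minimalPrimes] at h1
    obtain ⟨n, hn⟩ := Ideal.mem_radical_iff.mp h1
    exact IsReduced.eq_zero z ⟨n, (Ideal.mem_bot.mp hn)⟩
  obtain ⟨𝔭, h𝔭, ht𝔭⟩ : ∃ 𝔭 ∈ minimalPrimes A, t ∉ 𝔭 := by
    by_contra hcon
    exact ht (hnil t fun 𝔮 h𝔮 => by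
      by_contra h
      exact hcon ⟨𝔮, h𝔮, h⟩)
  haveI : 𝔭.IsPrime := h𝔭.1.1
  set F : Finset (Ideal A) := (minimalPrimes.finite_of_isNoetherianRing (R := A)).toFinset.erase 𝔭
    with hF
  have hJ : ¬ F.inf id ≤ 𝔭 := by
    intro hle
    obtain ⟨𝔮, h𝔮F, h𝔮⟩ := (Ideal.IsPrime.inf_le' (inferInstance : 𝔭.IsPrime)).mp hle
    rw [hF, Finset.mem_erase, Set.Finite.mem_toFinset] at h𝔮F
    exact h𝔮F.1 (le_antisymm h𝔮 (h𝔭.2 h𝔮F.2.1 h𝔮))
  obtain ⟨s, hsJ, hs𝔭⟩ := SetLike.not_le_iff_exists.mp hJ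
  refine ⟨𝔭, inferInstance, ht𝔭, s, hs𝔭, fun a ha => hnil _ fun 𝔮 h𝔮 => ?_⟩
  by_cases h𝔮𝔭 : 𝔮 = 𝔭
  · rw [h𝔮𝔭]
    exact 𝔭.mul_mem_left _ ha
  · have h1 : 𝔮 ∈ F := by
      rw [hF, Finset.mem_erase, Set.Finite.mem_toFinset]
      exact ⟨h𝔮𝔭, h𝔮⟩
    have h2 : F.inf id ≤ 𝔮 := Finset.inf_le (f := id) h1
    exact 𝔮.mul_mem_right _ (h2 hsJ)

end Prime

section Inj

variable {𝒪 : Type} [CommRing 𝒪] [IsDomain 𝒪] [IsDiscreteValuationRing 𝒪]
  [IsAdicComplete (maximalIdeal 𝒪) 𝒪] [Finite (ResidueField 𝒪)] [CharZero 𝒪]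
  {M : Type} [AddCommGroup M] [Module 𝒪 M] [Module.Finite 𝒪 M] [Module.IsTorsionFree 𝒪 M]
  {A : Type} [CommRing A] [IsLocalRing A] [Algebra 𝒪 A] [Module.Finite 𝒪 A] [IsReduced A]
  {G : Type*} [CommGroup G]

/-- **the joint eigen-points are jointly injective on `A`** -/
theorem ihn_joint_points_injective {p : ℕ} (hp : p.Prime) (hp𝒪 : (p : 𝒪) ∈ maximalIdeal 𝒪)
    (hres : Function.Surjective (residue A ∘ algebraMap 𝒪 A))
    (ρM : A →ₐ[𝒪] Module.End 𝒪 M) (hinj : Function.Injective ρM)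
    (hG : ∀ g : G, ∃ c : ℕ, g ^ (p ^ c) = 1) (x : G →* Module.End 𝒪 M)
    (hcomm : ∀ t g, Commute (ρM t) (x g)) (t : A) (ht : t ≠ 0) :
    ∃ (P : AlpqPoint 𝒪 A) (χ : G →* P.R) (y : P.R ⊗[𝒪] M), y ≠ 0 ∧
      (∀ a, (ρM a).baseChange P.R y = P.ψ a • y) ∧
      (∀ g, (x g).baseChange P.R y = χ g • y) ∧ P.ψ t ≠ 0 := by
  classical
  haveI : IsNoetherianRing A := IsNoetherianRing.of_finite 𝒪 A
  obtain ⟨𝔭, h𝔭, ht𝔭, s, hs𝔭, hs⟩ := ihn_exists_minimalPrime_killer t ht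
  haveI := h𝔭
  -- the `𝔭`-torsion of `M`
  let W : Submodule 𝒪 M :=
    { carrier := {m | ∀ a ∈ 𝔭, ρM a m = 0}
      zero_mem' := fun a _ => map_zero _
      add_mem' := fun {m m'} hm hm' a ha => by rw [map_add, hm a ha, hm' a ha, add_zero]
      smul_mem' := fun c m hm a ha => by rw [map_smul, hm a ha, smul_zero] }
  have hWmem : ∀ m, m ∈ W ↔ ∀ a ∈ 𝔭, ρM a m = 0 := fun m => Iff.rfl
  have hcommA : ∀ a b : A, ∀ m : M, ρM a (ρM b m) = ρM b (ρM a m) := by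
    intro a b m
    rw [← Module.End.mul_apply, ← Module.End.mul_apply, ← map_mul, ← map_mul, mul_comm]
  have hWA : ∀ b, ∀ w ∈ W, ρM b w ∈ W := by
    intro b w hw a ha
    rw [hcommA, hw a ha, map_zero]
  have hWG : ∀ g, ∀ w ∈ W, x g w ∈ W := by
    intro g w hw a ha
    have h1 := LinearMap.congr_fun (hcomm a g).eq w
    rw [Module.End.mul_apply, Module.End.mul_apply] at h1
    rw [h1, hw a ha, map_zero]
  have hs0 : s ≠ 0 := fun h => hs𝔭 (h ▸ 𝔭.zero_mem)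
  have hWne : W ≠ ⊥ := by
    have h1 : ρM s ≠ 0 := fun h => hs0 (hinj (by rw [h, map_zero]))
    obtain ⟨m, hm⟩ : ∃ m, ρM s m ≠ 0 := by
      by_contra hcon
      exact h1 (LinearMap.ext fun m => by
        by_contra h
        exact hcon ⟨m, h⟩)
    intro hbot
    have h2 : ρM s m ∈ W := by
      intro a ha
      rw [← Module.End.mul_apply, ← map_mul, mul_comm, hs a ha, map_zero, LinearMap.zero_apply]
    rw [hbot, Submodule.mem_bot] at h2
    exact hm h2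
  obtain ⟨P, χ, y, hy0, hyW, hyA, hyG⟩ := ihn_exists_joint_eigen hp hp𝒪 hres
    ihn_exists_pow_le_map ρM hG x hcomm W hWne hWA hWG
  refine ⟨P, χ, y, hy0, hyA, hyG, ?_⟩
  haveI : Module.Free 𝒪 M := Module.free_of_finite_type_torsion_free'
  haveI : Module.IsTorsionFree P.R (P.R ⊗[𝒪] M) := inferInstance
  -- `P.ψ` kills `𝔭`
  have hψ𝔭 : ∀ a ∈ 𝔭, P.ψ a = 0 := by
    intro a ha
    have h1 : (ρM a).baseChange P.R y = 0 :=
      ihn_baseChange_eq_zero_of_range P.R (ρM a) W (fun w hw => hw a ha) y hyW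
    rw [hyA] at h1
    exact (smul_eq_zero.mp h1).resolve_right hy0
  -- the induced map on the quotient is injective
  let ψb : A ⧸ 𝔭 →ₐ[𝒪] P.R := Ideal.Quotient.liftₐ 𝔭 P.ψ hψ𝔭
  haveI : Algebra.IsIntegral 𝒪 (A ⧸ 𝔭) := Algebra.IsIntegral.of_finite 𝒪 (A ⧸ 𝔭)
  have hker : RingHom.ker (ψb : A ⧸ 𝔭 →+* P.R) = ⊥ := by
    apply Ideal.eq_bot_of_comap_eq_bot (R := 𝒪)
    ext c
    rw [Ideal.mem_comap, RingHom.mem_ker, Ideal.mem_bot]
    show ψb (algebraMap 𝒪 (A ⧸ 𝔭) c) = 0 ↔ c = 0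
    rw [ψb.commutes]
    exact map_eq_zero_iff _ P.inj
  intro h0
  apply ht𝔭
  rw [← Ideal.Quotient.eq_zero_iff_mem, ← Ideal.mem_bot, ← hker, RingHom.mem_ker]
  exact h0

end Inj

end Fermat.Agent.Ihara
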