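/-
IHARA / Nf (helper4): **[NOFIX]** — package (E) of helper2's carve-up of [Asm].

Level `Γ₀(N')`, `N' = N'' v v`, `v ∤ N''`, `v ≠ p`.  `𝒪'` a complete discrete valuation ring of
characteristic zero with `p ∈ 𝔪`, `r : G_ℚ → GL₂(𝒪')` a continuous representation with
`tr r(Frob_ℓ) = lam ℓ`, `det r(Frob_ℓ) = ℓ` for the primes `ℓ ∉ S`, and `c ≠ 0` a class in
`Hom_par(Γ₀(N'), 𝒪')` with `T_ℓ c = lam ℓ • c` (`ℓ ∉ S`), `U_v c = 0 = U_v W_{v²} c` (the output of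
helper7's `ihtc_exists_eigen`).

* `ihn_not_unipotent` : `r` is NOT unipotent on the inertia group of any place `A` over `v`:
  `¬ ∀ τ ∈ I_A, tr r(τ) = 2 ∧ det r(τ) = 1`;
* `ihn_trace_ne_two`  : if `σ ∈ I_A` generates the image of `I_A` modulo every power of `𝔪`
  (`IhgGen` + the reductions of `r` are `p`-tests) and `det r(σ) = 1`, then `tr r(σ) ≠ 2`.

Proof of the first: on `V = 𝒪' ⊗ Ta_p J₀(N')` let `Y` be the common kernel of `T_ℓ - lam ℓ`, `U_v`,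
`U_v W`; it is non-zero (it contains `c`), Galois stable, and by Eichler–Shimura + Chebotarev +
continuity every `g ∈ G_ℚ` satisfies `g² - tr r(g) g + det r(g) = 0` on `Y`.  If `r` were unipotent on
`I_A`, then `(τ - 1)² = 0` on `Y` for all `τ ∈ I_A`, the nilpotents `τ - 1` anticommute, and `Y` would
contain a non-zero vector fixed by `I_A`, contradicting (NEW) (`t4g_TT_new`).
-/
import Mathlib
import Fermat.Agent.Lib.Ihara.Nf.Core
import Fermat.Agent.Lib.T1.Asm.PadicAlgebra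
import Fermat.Agent.Lib.T1.Asm.Res.DescentBasic

set_option autoImplicit false
set_option linter.unusedSectionVars false
set_option linter.unusedVariables false
set_option linter.style.haveILetI false

open scoped TensorProduct
open IsLocalRing Matrix MatrixGroups CongruenceSubgroup Fermat.Agent.T1 Fermat.Agent.T2
  Fermat.Agent.T4 ModularCurve Fermat.Agent.S24Lib ModularCurve.Period Fermat.Agent.S53Lib

namespace Fermat.Agent.Ihara

local notation "Qb" => AlgebraicClosure ℚ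
local notation "GQ" => (AlgebraicClosure ℚ ≃ₐ[ℚ] AlgebraicClosure ℚ)

section Mat

variable {R : Type*} [CommRing R]

/-- trace and determinant of a `2 × 2` matrix modulo an ideal -/
theorem ihn_trace_det_sub_mem (I : Ideal R) (X Y : Matrix (Fin 2) (Fin 2) R)
    (h : ∀ i j, (Y - X) i j ∈ I) : Y.trace - X.trace ∈ I ∧ Y.det - X.det ∈ I := by
  have h' : ∀ i j, Y i j - X i j ∈ I := fun i j => by simpa using h i j
  constructor
  · rw [Matrix.trace_fin_two, Matrix.trace_fin_two]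
    have : Y 0 0 + Y 1 1 - (X 0 0 + X 1 1) = (Y 0 0 - X 0 0) + (Y 1 1 - X 1 1) := by ring
    rw [this]
    exact I.add_mem (h' 0 0) (h' 1 1)
  · rw [Matrix.det_fin_two, Matrix.det_fin_two]
    have : Y 0 0 * Y 1 1 - Y 0 1 * Y 1 0 - (X 0 0 * X 1 1 - X 0 1 * X 1 0)
        = (Y 0 0 - X 0 0) * Y 1 1 + X 0 0 * (Y 1 1 - X 1 1)
          - ((Y 0 1 - X 0 1) * Y 1 0 + X 0 1 * (Y 1 0 - X 1 0)) := by ring
    rw [this]
    exact I.sub_mem (I.add_mem (I.mul_mem_right _ (h' 0 0)) (I.mul_mem_left _ (h' 1 1)))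
      (I.add_mem (I.mul_mem_right _ (h' 0 1)) (I.mul_mem_left _ (h' 1 0)))

/-- the powers of a `2 × 2` matrix with trace `2` and determinant `1` have trace `2` and
determinant `1` -/
theorem ihn_trace_det_pow (X : Matrix (Fin 2) (Fin 2) R) (htr : X.trace = 2) (hdet : X.det = 1)
    (k : ℕ) : (X ^ k).trace = 2 ∧ (X ^ k).det = 1 := by
  refine ⟨?_, by rw [Matrix.det_pow, hdet, one_pow]⟩
  have key : ∀ k, (X ^ k).trace = 2 ∧ (X ^ (k + 1)).trace = 2 := by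
    intro k
    induction k with
    | zero =>
      refine ⟨?_, by rw [zero_add, pow_one, htr]⟩
      rw [pow_zero, Matrix.trace_one]
      simp
    | succ k ih =>
      refine ⟨ih.2, ?_⟩
      rw [ter_trace_pow_succ_succ, htr, hdet, ih.1, ih.2]
      ring
  exact (key k).1

end Mat

section

variable (p : ℕ) [Fact p.Prime] (N'' v : ℕ) [NeZero N''] [hv : Fact v.Prime]
  (hvN : ¬ v ∣ N'') [NeZero (N'' * v * v)] (hvp : v ≠ p)
  (S : Finset ℕ) (hpS : p ∈ S) (hNS : ∀ q : ℕ, q.Prime → q ∣ N'' * v * v → q ∈ S)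
  {𝒪' : Type} [CommRing 𝒪'] [IsDomain 𝒪'] [IsDiscreteValuationRing 𝒪'] [CharZero 𝒪']
  [IsAdicComplete (maximalIdeal 𝒪') 𝒪'] (hp𝒪 : (p : 𝒪') ∈ maximalIdeal 𝒪')
  (lam : ℕ → 𝒪') (r : GQ →* Matrix (Fin 2) (Fin 2) 𝒪') (hcts : MatCts 𝒪' r)
  (hfrob : ∀ ℓ : ℕ, ℓ.Prime → ℓ ∉ S → ∀ P : ValuationSubring Qb, P.LiesOverPrime ℓ →
    ∀ φ : GQ, P.IsFrobeniusAt φ ℓ → (r φ).trace = lam ℓ ∧ (r φ).det = (ℓ : 𝒪'))
  (c : ↥(parabolicHoms 𝒪' (Gamma0 (N'' * v * v)) 𝒪')) (hc0 : c ≠ 0)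
  (hcT : ∀ (ℓ : ℕ) (hℓ : ℓ.Prime) (hℓN : ¬ ℓ ∣ N'' * v * v), ℓ ∉ S →
    (tdmSysT (N'' * v * v) ℓ hℓ hℓN).homPar 𝒪' 𝒪' c = lam ℓ • c)
  (hcU : (tdmSysU (N'' * v * v) v (t4g_q_dvd N'' v) hv.out.ne_zero).homPar 𝒪' 𝒪' c = 0)
  (hcUW : (tdmSysU (N'' * v * v) v (t4g_q_dvd N'' v) hv.out.ne_zero).homPar 𝒪' 𝒪'
    ((t4gSysW N'' v hvN).homPar 𝒪' 𝒪' c) = 0)
  (A : ValuationSubring Qb) (hA : A.LiesOverPrime v)

include hvp hpS hNS hp𝒪 hcts hfrob hc0 hcT hcU hcUW hA in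
/-- **[NOFIX], group form**: `r` is not unipotent on the inertia group at `A` -/
theorem ihn_not_unipotent :
    ¬ ∀ τ ∈ A.inertiaSubgroupIn ℚ, (r τ).trace = 2 ∧ (r τ).det = 1 := by
  letI : Algebra ℤ_[p] 𝒪' := tePadicAlgebra p 𝒪' hp𝒪
  refine ihnY_not_unipotent p N'' v hvN hvp hp𝒪 lam S hpS hNS r hcts hfrob ?_ A hA
  set β := ihnBase (N'' * v * v) ℤ_[p] 𝒪' with hβ
  have hT : ∀ (ℓ : ℕ) (hℓ : ℓ.Prime) (hℓN : ¬ ℓ ∣ N'' * v * v),
      tdmHeckeP p (N'' * v * v) (CuspForm.heckeAlgebra.T hℓ hℓN (Set.notMem_empty ℓ))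
        = (tdmSysT (N'' * v * v) ℓ hℓ hℓN).homPar ℤ_[p] ℤ_[p] := fun ℓ hℓ hℓN =>
    LinearMap.ext fun φ => Subtype.ext (tdmHeckeP_T p (N'' * v * v) ℓ hℓ hℓN φ)
  have hU : tdmHeckeP p (N'' * v * v) (CuspForm.heckeAlgebra.U hv.out (t4g_q_dvd N'' v)
        (Set.notMem_empty v))
      = (tdmSysU (N'' * v * v) v (t4g_q_dvd N'' v) hv.out.ne_zero).homPar ℤ_[p] ℤ_[p] :=
    LinearMap.ext fun φ => Subtype.ext (tdmHeckeP_U p (N'' * v * v) v hv.out (t4g_q_dvd N'' v) φ)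
  refine ⟨β.symm c, ⟨fun ℓ hℓ hℓN hℓS => ?_, ?_, ?_⟩, fun h => hc0 ?_⟩
  · apply β.injective
    show β ((tdmHeckeP p (N'' * v * v) (CuspForm.heckeAlgebra.T hℓ hℓN
      (Set.notMem_empty ℓ))).baseChange 𝒪' (β.symm c)) = _
    rw [hT, hβ, ihnBase_homPar, ← hβ, β.apply_symm_apply, map_smul, β.apply_symm_apply]
    exact hcT ℓ hℓ hℓN hℓS
  · apply β.injective
    show β ((tdmHeckeP p (N'' * v * v) (CuspForm.heckeAlgebra.U hv.out (t4g_q_dvd N'' v)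
      (Set.notMem_empty v))).baseChange 𝒪' (β.symm c)) = _
    rw [hU, hβ, ihnBase_homPar, ← hβ, β.apply_symm_apply, map_zero]
    exact hcU
  · apply β.injective
    show β ((tdmHeckeP p (N'' * v * v) (CuspForm.heckeAlgebra.U hv.out (t4g_q_dvd N'' v)
      (Set.notMem_empty v))).baseChange 𝒪'
        (((t4gSysW N'' v hvN).homPar ℤ_[p] ℤ_[p]).baseChange 𝒪' (β.symm c))) = _
    rw [hU, hβ, ihnBase_homPar, ihnBase_homPar, ← hβ, β.apply_symm_apply, map_zero]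
    exact hcUW
  · have := congrArg β h
    rwa [β.apply_symm_apply, map_zero] at this

include hvp hpS hNS hp𝒪 hcts hfrob hc0 hcT hcU hcUW hA in
/-- **[NOFIX], consumer form**: if the image of the inertia group at `A` is generated by `r σ`
modulo every power of the maximal ideal and `det r(σ) = 1`, then `tr r(σ) ≠ 2` -/
theorem ihn_trace_ne_two (σ : GQ) (hσ : σ ∈ A.inertiaSubgroupIn ℚ)
    (hgen : ∀ τ ∈ A.inertiaSubgroupIn ℚ, ∀ n : ℕ, ∃ k : ℕ,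
      ∀ i j, (r τ - r σ ^ k) i j ∈ maximalIdeal 𝒪' ^ n)
    (hdet : (r σ).det = 1) : (r σ).trace ≠ 2 := by
  intro htr
  apply ihn_not_unipotent p N'' v hvN hvp S hpS hNS hp𝒪 lam r hcts hfrob c hc0 hcT hcU hcUW A hA
  intro τ hτ
  have hkrull : ⨅ i, maximalIdeal 𝒪' ^ i = ⊥ :=
    Ideal.iInf_pow_eq_bot_of_isLocalRing _ (Ideal.IsMaximal.ne_top inferInstance)
  have key : ∀ n, (r τ).trace - 2 ∈ maximalIdeal 𝒪' ^ n ∧ (r τ).det - 1 ∈ maximalIdeal 𝒪' ^ n := by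
    intro n
    obtain ⟨k, hk⟩ := hgen τ hτ n
    obtain ⟨h1, h2⟩ := ihn_trace_det_sub_mem (maximalIdeal 𝒪' ^ n) (r σ ^ k) (r τ) hk
    obtain ⟨h3, h4⟩ := ihn_trace_det_pow (r σ) htr hdet k
    rw [h3] at h1
    rw [h4] at h2
    exact ⟨h1, h2⟩
  constructor
  · rw [← sub_eq_zero, ← Ideal.mem_bot, ← hkrull, Ideal.mem_iInf]
    exact fun n => (key n).1
  · rw [← sub_eq_zero, ← Ideal.mem_bot, ← hkrull, Ideal.mem_iInf]
    exact fun n => (key n).2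

end

end Fermat.Agent.Ihara
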