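/-
IHARA / Nf (helper4), part 12: **(C) + (E): the consumer form of [NOFIX] at the level `Γ_H(N)`**.

`c ≠ 0` a class in `Hom_par(Γ_H(N), 𝒪')` which is an eigenvector of all diamond operators with
character `ψ`, `ψ ∘ y_v ≠ 1` (`v ∈ Rl`), and of the twisted Hecke operators
`T♭_ℓ = T_ℓ ∘ ⟨ihtcZ N Rl k ℓ⟩` with eigenvalues `lam ℓ = tr r(Frob_ℓ)` (`ℓ ∉ S`) for a continuous
`r : G_ℚ → GL₂(𝒪')` with `det r(Frob_ℓ) = ℓ`.  Then for a topological generator `σ` of the image of the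
inertia group at a place over `v` with `det r(σ) = 1`: `tr r(σ) ≠ 2`.

Proof: helper7's `ihtc_exists_eigen` (twist to `Γ₀(N ∏ Rl)`, `U_v c'' = 0 = U_v W_{v²} c''`) and
`ihn_trace_ne_two`.
-/
import Mathlib
import Fermat.Agent.Lib.Ihara.Nf.Main
import Fermat.Agent.Lib.Ihara.Tw.ChainHecke

set_option autoImplicit false
set_option linter.unusedSectionVars false
set_option linter.unusedVariables false
set_option linter.style.haveILetI false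

open scoped TensorProduct
open IsLocalRing Matrix MatrixGroups CongruenceSubgroup Fermat.Agent.T1 Fermat.Agent.T2
  Fermat.Agent.T4 ModularCurve Fermat.Agent.S24Lib ModularCurve.Period Fermat.Agent.S53Lib
  Fermat.Agent.DS Fermat.Agent.T1G

namespace Fermat.Agent.Ihara

local notation "Qb" => AlgebraicClosure ℚ
local notation "GQ" => (AlgebraicClosure ℚ ≃ₐ[ℚ] AlgebraicClosure ℚ)

/-- the arithmetic of the level: `N ∏ Rl = N'' v v` with `v ∤ N''` -/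
theorem ihn_level_eq {N : ℕ} {Rl : List ℕ} (hnodup : Rl.Nodup) (hprime : ∀ r ∈ Rl, r.Prime)
    {v : ℕ} (hv : v ∈ Rl) (hvN : v ∣ N) (hv2 : ¬ v * v ∣ N) :
    ∃ N'' : ℕ, N * Rl.prod = N'' * v * v ∧ ¬ v ∣ N'' := by
  have hvp : v.Prime := hprime v hv
  obtain ⟨N₁, rfl⟩ := hvN
  have h1 : ¬ v ∣ N₁ := fun h => hv2 (Nat.mul_dvd_mul_left v h)
  have h2 : ¬ v ∣ (Rl.erase v).prod := by
    intro h
    obtain ⟨a, ha, hva⟩ := (Prime.dvd_prod_iff hvp.prime).mp h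
    have ha' := (List.Nodup.mem_erase_iff hnodup).mp ha
    exact ha'.1 ((Nat.prime_dvd_prime_iff_eq hvp (hprime a ha'.2)).mp hva).symm
  refine ⟨N₁ * (Rl.erase v).prod, ?_, ?_⟩
  · rw [← List.prod_erase hv]
    ring
  · intro h
    rcases (Nat.Prime.dvd_mul hvp).mp h with h | h
    · exact h1 h
    · exact h2 h

section

variable (p : ℕ) [Fact p.Prime]
  {𝒪' : Type} [CommRing 𝒪'] [IsDomain 𝒪'] [IsDiscreteValuationRing 𝒪'] [CharZero 𝒪']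
  [IsAdicComplete (maximalIdeal 𝒪') 𝒪'] (hp𝒪 : (p : 𝒪') ∈ maximalIdeal 𝒪')
  (lam : ℕ → 𝒪') (r : GQ →* Matrix (Fin 2) (Fin 2) 𝒪') (hcts : MatCts 𝒪' r)

include hp𝒪 hcts in
/-- `ihn_trace_ne_two` at a level `N'` given with an equation `N' = N'' v v` and with the operators
`U_v`, `W_{v²}` given by arbitrary coset systems with the standard representatives -/
theorem ihn_trace_ne_two_of_eq (N'' v : ℕ) [hv : Fact v.Prime] (hvN : ¬ v ∣ N'') (hvp : v ≠ p)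
    {N' : ℕ} [NeZero N'] (heq : N' = N'' * v * v)
    (S : Finset ℕ) (hpS : p ∈ S) (hNS : ∀ q : ℕ, q.Prime → q ∣ N' → q ∈ S)
    (hfrob : ∀ ℓ : ℕ, ℓ.Prime → ℓ ∉ S → ∀ P : ValuationSubring Qb, P.LiesOverPrime ℓ →
      ∀ φ : GQ, P.IsFrobeniusAt φ ℓ → (r φ).trace = lam ℓ ∧ (r φ).det = (ℓ : 𝒪'))
    (c : ↥(parabolicHoms 𝒪' (Gamma0 N') 𝒪')) (hc0 : c ≠ 0)
    (hcT : ∀ (ℓ : ℕ) (hℓ : ℓ.Prime) (hℓN : ¬ ℓ ∣ N'), ℓ ∉ S →
      (tdmSysT N' ℓ hℓ hℓN).homPar 𝒪' 𝒪' c = lam ℓ • c)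
    (hcU : ∀ (U' : tdmCosetSys (Gamma0 N') (Fin v)) (hU' : U'.rep = tdmRepU v),
      U'.homPar 𝒪' 𝒪' c = 0)
    (hcUW : ∀ (U' : tdmCosetSys (Gamma0 N') (Fin v)) (hU' : U'.rep = tdmRepU v)
      (W' : tdmCosetSys (Gamma0 N') Unit) (M₁ : ℕ) (hM₁ : N' = M₁ * v * v) (a b : ℤ)
      (hab : ((v * v : ℕ) : ℤ) * a - (M₁ : ℤ) * b = 1)
      (hW' : W'.rep () = t2wMat M₁ (v * v) a b),
      U'.homPar 𝒪' 𝒪' (W'.homPar 𝒪' 𝒪' c) = 0)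
    (A : ValuationSubring Qb) (hA : A.LiesOverPrime v)
    (σ : GQ) (hσ : σ ∈ A.inertiaSubgroupIn ℚ)
    (hgen : ∀ τ ∈ A.inertiaSubgroupIn ℚ, ∀ n : ℕ, ∃ k : ℕ,
      ∀ i j, (r τ - r σ ^ k) i j ∈ maximalIdeal 𝒪' ^ n)
    (hdet : (r σ).det = 1) : (r σ).trace ≠ 2 := by
  subst heq
  haveI : NeZero N'' := ⟨fun h => by
    have := NeZero.ne (N'' * v * v)
    rw [h, zero_mul, zero_mul] at this
    exact this rfl⟩
  exact ihn_trace_ne_two p N'' v hvN hvp S hpS hNS hp𝒪 lam r hcts hfrob c hc0 hcT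
    (hcU _ (tdmSysU_rep _ _ _ _))
    (hcUW _ (tdmSysU_rep _ _ _ _) (t4gSysW N'' v hvN) N'' rfl _ _ (t4g_bezout N'' v hvN)
      (t4gSysW_rep N'' v hvN ()))
    A hA σ hσ hgen hdet

include hp𝒪 hcts in
/-- **(C) + (E)**: the trace of the inertia generator at `v` is not `2` at an eigenclass of level
`Γ_H(N)` whose diamond character is non-trivial at `v` -/
theorem ihn_point_trace_ne_two {N : ℕ} [NeZero N] {H : Subgroup (ZMod N)ˣ} {Rl : List ℕ}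
    {k : ℕ → ℕ} (hyp : IhtcHyp N H Rl k) {v : ℕ} (hv : v ∈ Rl) (hvp : v ≠ p)
    {N' : ℕ} [NeZero N'] (hN' : N' = N * Rl.prod)
    (S : Finset ℕ) (hpS : p ∈ S) (hNS : ∀ q : ℕ, q.Prime → q ∣ N' → q ∈ S)
    (hfrob : ∀ ℓ : ℕ, ℓ.Prime → ℓ ∉ S → ∀ P : ValuationSubring Qb, P.LiesOverPrime ℓ →
      ∀ φ : GQ, P.IsFrobeniusAt φ ℓ → (r φ).trace = lam ℓ ∧ (r φ).det = (ℓ : 𝒪'))
    (ψ : (ZMod N)ˣ →* 𝒪') (c : ↥(parabolicHoms 𝒪' (ihfGammaH N H) 𝒪')) (hc0 : c ≠ 0)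
    (hcD : ∀ x : (ZMod N)ˣ, (ihfSysD N H x).homPar 𝒪' 𝒪' c = ψ x • c)
    (hcT : ∀ ℓ : ℕ, ℓ.Prime → ¬ ℓ ∣ N' → ℓ ∉ S →
      ihtrOp H 𝒪' 𝒪' (ihtcZ N Rl k) ℓ c = lam ℓ • c)
    (hψ : ∃ u : (ZMod v)ˣ, ψ (ihtcY N k v u) ≠ 1)
    (A : ValuationSubring Qb) (hA : A.LiesOverPrime v)
    (σ : GQ) (hσ : σ ∈ A.inertiaSubgroupIn ℚ)
    (hgen : ∀ τ ∈ A.inertiaSubgroupIn ℚ, ∀ n : ℕ, ∃ k : ℕ,
      ∀ i j, (r τ - r σ ^ k) i j ∈ maximalIdeal 𝒪' ^ n)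
    (hdet : (r σ).det = 1) : (r σ).trace ≠ 2 := by
  obtain ⟨N'', heq, hvN⟩ := ihn_level_eq hyp.nodup hyp.prime hv (hyp.dvd v hv) (hyp.not_sq v hv)
  haveI : Fact v.Prime := ⟨hyp.prime v hv⟩
  obtain ⟨c'', hc''0, hT, hU, hUW⟩ := ihtc_exists_eigen hyp hv hN' 𝒪' 𝒪' ψ c hc0 hcD hψ
  exact ihn_trace_ne_two_of_eq p hp𝒪 lam r hcts N'' v hvN hvp (hN'.trans heq) S hpS hNS hfrob c''
    hc''0 (fun ℓ hℓ hℓN hℓS => hT ℓ hℓ hℓN (lam ℓ) (hcT ℓ hℓ hℓN hℓS)) hU hUW A hA σ hσ hgen hdet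

end

end Fermat.Agent.Ihara
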