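/-
IHARA / Nf (helper4), part 14: **the wiring of (C) + (E) + (F) at the joint eigen-points**.

* `ihn_PT`  : (PT) at a point `P` of the Hecke ring `A` carrying an eigenclass `c ≠ 0` of level
  `Γ_H(N)` over `P.R` (the output of POINT→CLASS) whose diamond character is non-trivial at `v`:
  `P.ψ (tr rA(σ_v)) ≠ 2` (`ihn_point_trace_ne_two` for `mapMat P.ψ rA`, with helper5's
  `ihta_gen_pow_map`);
* `ihn_TC`  : the two `[TC]` fields of `IhaHecke` at a C-prime `v` from `P.ψ (tr rA(σ_v)) ≠ 2` at all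
  joint eigen-points (`ihn_joint_points_injective` + helper5's `ihta_TC`);
* `ihn_hpt_of_trace` : the hypothesis `hpt` of `ihn_WL` from `P.ψ (tr rA(σ_q)) ≠ 2` and
  `tr rA(σ_q) = aq + aq'`, `aq aq' = 1` (helper5's `ihta_AQ`).
-/
import Mathlib
import Fermat.Agent.Lib.Ihara.Nf.Inj
import Fermat.Agent.Lib.Ihara.Nf.Point
import Fermat.Agent.Lib.Ihara.Ta.Main

set_option autoImplicit false
set_option linter.unusedSectionVars false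
set_option linter.unusedVariables false
set_option linter.style.haveILetI false

open scoped TensorProduct
open IsLocalRing Matrix MatrixGroups CongruenceSubgroup Fermat.Agent.T1 Fermat.Agent.T2
  Fermat.Agent.T4 ModularCurve Fermat.Agent.S24Lib ModularCurve.Period Fermat.Agent.S53Lib
  Fermat.Agent.DS Fermat.Agent.T1G Fermat.Agent.TW Polynomial

namespace Fermat.Agent.Ihara

open Fermat.Agent.Alpha (AlpqPoint)

local notation "Qb" => AlgebraicClosure ℚ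
local notation "GQ" => (AlgebraicClosure ℚ ≃ₐ[ℚ] AlgebraicClosure ℚ)

section PT

variable {𝒪 : Type} [CommRing 𝒪] [IsLocalRing 𝒪]
  {A : Type} [CommRing A] [IsLocalRing A] [Algebra 𝒪 A]

/-- **(PT)**: at a point of the Hecke ring carrying an eigenclass whose diamond character is
non-trivial at `v`, the trace of the inertia generator at `v` is not `2` -/
theorem ihn_PT (p : ℕ) [Fact p.Prime] (hp𝒪 : (p : 𝒪) ∈ maximalIdeal 𝒪)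
    (hpA : (p : A) ∈ maximalIdeal A)
    (rA : GQ →* Matrix (Fin 2) (Fin 2) A) (hcts : MatCts A rA)
    (S : Finset ℕ) (τ : ℕ → A)
    (hfrobA : ∀ ℓ : ℕ, ℓ.Prime → ℓ ∉ S → ∀ Pl : ValuationSubring Qb, Pl.LiesOverPrime ℓ →
      ∀ φ : GQ, Pl.IsFrobeniusAt φ ℓ → (rA φ).trace = τ ℓ ∧ (rA φ).det = (ℓ : A))
    (P : AlpqPoint 𝒪 A)
    {N : ℕ} [NeZero N] {H : Subgroup (ZMod N)ˣ} {Rl : List ℕ} {k : ℕ → ℕ}
    (hyp : IhtcHyp N H Rl k) {v : ℕ} (hv : v ∈ Rl) (hvp : v ≠ p)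
    {N' : ℕ} [NeZero N'] (hN' : N' = N * Rl.prod)
    (hpS : p ∈ S) (hNS : ∀ q : ℕ, q.Prime → q ∣ N' → q ∈ S)
    (Ψ : (ZMod N)ˣ →* P.R) (c : ↥(parabolicHoms P.R (ihfGammaH N H) P.R)) (hc0 : c ≠ 0)
    (hcD : ∀ x : (ZMod N)ˣ, (ihfSysD N H x).homPar P.R P.R c = Ψ x • c)
    (hcT : ∀ ℓ : ℕ, ℓ.Prime → ¬ ℓ ∣ N' → ℓ ∉ S →
      ihtrOp H P.R P.R (ihtcZ N Rl k) ℓ c = P.ψ (τ ℓ) • c)
    (hΨ : ∃ u : (ZMod v)ˣ, Ψ (ihtcY N k v u) ≠ 1)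
    (Pl : ValuationSubring Qb) (hPl : Pl.LiesOverPrime v) (σ : GQ) (hσ : IhgGen p Pl σ)
    (hresI : ∀ τ' ∈ Pl.inertiaSubgroupIn ℚ, ∀ i j, (rA τ' - 1) i j ∈ maximalIdeal A)
    (hdet : (rA σ).det = 1) : P.ψ (rA σ).trace ≠ 2 := by
  haveI := P.isLocalHom_ψ
  have hp : p.Prime := Fact.out
  have h1 := ihn_point_trace_ne_two p (P.natCast_mem hp𝒪) (fun ℓ => P.ψ (τ ℓ))
    (mapMat (P.ψ : A →+* P.R) rA) (hcts.map _ P.isLocalHom_ψ) hyp hv hvp hN' S hpS hNS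
    (fun ℓ hℓ hℓS Pl' hPl' φ hφ => by
      obtain ⟨h2, h3⟩ := hfrobA ℓ hℓ hℓS Pl' hPl' φ hφ
      constructor
      · rw [mapMat_apply, Matrix.trace_fin_two, Matrix.map_apply, Matrix.map_apply, ← h2,
          Matrix.trace_fin_two, map_add]
        rfl
      · rw [mapMat_apply]
        have h4 : ((rA φ).map (P.ψ : A →+* P.R)).det = (P.ψ : A →+* P.R) (rA φ).det :=
          (RingHom.map_det _ _).symm
        rw [h4, h3, map_natCast])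
    Ψ c hc0 hcD hcT hΨ Pl hPl σ hσ.mem
    (ihta_gen_pow_map (P.ψ : A →+* P.R) P.isLocalHom_ψ hp hpA Pl rA hcts hresI hσ)
    (by
      rw [mapMat_apply]
      have h4 : ((rA σ).map (P.ψ : A →+* P.R)).det = (P.ψ : A →+* P.R) (rA σ).det :=
        (RingHom.map_det _ _).symm
      rw [h4, hdet, map_one])
  intro h2
  apply h1
  rw [mapMat_apply, Matrix.trace_fin_two, Matrix.map_apply, Matrix.map_apply, ← h2,
    Matrix.trace_fin_two, map_add]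
  rfl

end PT

section TC

variable {𝒪 : Type} [CommRing 𝒪] [IsDomain 𝒪] [IsDiscreteValuationRing 𝒪]
  [IsAdicComplete (maximalIdeal 𝒪) 𝒪] [Finite (ResidueField 𝒪)] [CharZero 𝒪]
  {M : Type} [AddCommGroup M] [Module 𝒪 M] [Module.Finite 𝒪 M] [Module.IsTorsionFree 𝒪 M]
  {A : Type} [CommRing A] [IsLocalRing A] [Algebra 𝒪 A] [Module.Finite 𝒪 A] [IsReduced A]
  [IsAdicComplete (maximalIdeal A) A] [IsLocalHom (algebraMap 𝒪 A)]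
  {G : Type*} [CommGroup G]

/-- **the two `[TC]` fields of `IhaHecke` at a C-prime `v`** from the non-fixedness at all joint
eigen-points -/
theorem ihn_TC {p v : ℕ} (hp : p.Prime) (hp2 : p ≠ 2) (hv : v.Prime) (hpv : p ≠ v)
    (hp𝒪 : (p : 𝒪) ∈ maximalIdeal 𝒪)
    (hres : Function.Surjective (residue A ∘ algebraMap 𝒪 A))
    (ρM : A →ₐ[𝒪] Module.End 𝒪 M) (hinj : Function.Injective ρM)
    (hG : ∀ g : G, ∃ c : ℕ, g ^ (p ^ c) = 1) (x : G →* Module.End 𝒪 M)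
    (hcomm : ∀ t g, Commute (ρM t) (x g))
    (ρbar : ResidualGaloisRep (ResidueField 𝒪))
    (b : Module.Basis (Fin 2) (ResidueField 𝒪) ρbar.V) (hunr : ρbar.IsUnramifiedAt v)
    (Pl : ValuationSubring Qb) (hPl : Pl.LiesOverPrime v)
    (r : GQ →* Matrix (Fin 2) (Fin 2) A) (hcts : MatCts A r)
    (hr : IsStrictLift (𝒪 := 𝒪) (resMat ρbar b) r)
    {φ σ : GQ} (hφ : Pl.IsFrobeniusAt φ v) (hσ : σ ∈ Pl.inertiaSubgroupIn ℚ)
    (hdet : (r σ).det = 1)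
    (a u : ℕ) (hvau : v = 1 + p ^ a * u) (hu : ¬ p ∣ u) (ha : 0 < a)
    (μ : Finset 𝒪ˣ)
    (hμ : (X ^ (p ^ a) - 1 : 𝒪[X]) = (X - 1) * ∏ ζ ∈ μ, (X - C (ζ : 𝒪)))
    (hne : ∀ (P : AlpqPoint 𝒪 A) (χ : G →* P.R) (y : P.R ⊗[𝒪] M), y ≠ 0 →
      (∀ t, (ρM t).baseChange P.R y = P.ψ t • y) → (∀ g, (x g).baseChange P.R y = χ g • y) →
      P.ψ (r σ).trace ≠ 2) :
    ∏ ζ ∈ μ, ((r σ).trace - algebraMap 𝒪 A ((ζ : 𝒪) + ((ζ⁻¹ : 𝒪ˣ) : 𝒪))) = 0 ∧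
      r φ * r σ = r σ * r φ := by
  have hpA : (p : A) ∈ maximalIdeal A := by
    have h := map_nonunit (algebraMap 𝒪 A) _ hp𝒪
    rwa [map_natCast] at h
  let ι := {T : Σ P : AlpqPoint 𝒪 A, (G →* P.R) × (P.R ⊗[𝒪] M) // T.2.2 ≠ 0 ∧
    (∀ t, (ρM t).baseChange T.1.R T.2.2 = T.1.ψ t • T.2.2) ∧
    (∀ g, (x g).baseChange T.1.R T.2.2 = T.2.1 g • T.2.2)}
  refine ihta_TC (ι := ι) (D := fun i => i.1.1.R) hp hp2 hv hpv hpA ρbar b hunr Pl hPl r hcts hr hφ hσ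
    hdet a u hvau hu ha μ hμ (fun i => (i.1.1.ψ : A →+* i.1.1.R)) ?_ ?_
  · intro t ht
    by_contra ht0
    obtain ⟨P, χ, y, hy0, hyA, hyG, hψt⟩ :=
      ihn_joint_points_injective hp hp𝒪 hres ρM hinj hG x hcomm t ht0
    exact hψt (ht ⟨⟨P, (χ, y)⟩, hy0, hyA, hyG⟩)
  · rintro ⟨⟨P, χ, y⟩, hy0, hyA, hyG⟩
    exact hne P χ y hy0 hyA hyG

end TC

section AQ

variable {𝒪 : Type} [CommRing 𝒪] {A : Type} [CommRing A] [Algebra 𝒪 A]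

/-- the hypothesis `hpt` of `ihn_WL` at one point, from `tr rA(σ_q) = aq + aq'`, `aq aq' = 1` -/
theorem ihn_hpt_of_trace (P : AlpqPoint 𝒪 A) (t aq aq' : A) (h1 : aq * aq' = 1)
    (h2 : t = aq + aq') (hne : P.ψ t ≠ 2) : P.ψ aq ≠ 1 := by
  intro h
  apply hne
  have h3 : P.ψ aq * P.ψ aq' = 1 := by rw [← map_mul, h1, map_one]
  rw [h, one_mul] at h3
  rw [h2, map_add, h, h3]
  norm_num

end AQ

section AQWL

variable {𝒪 : Type} [CommRing 𝒪] [IsDomain 𝒪] [IsDiscreteValuationRing 𝒪]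
  [IsAdicComplete (maximalIdeal 𝒪) 𝒪] [Finite (ResidueField 𝒪)] [CharZero 𝒪]
  {M : Type} [AddCommGroup M] [Module 𝒪 M] [Module.Finite 𝒪 M] [Module.IsTorsionFree 𝒪 M]
  {A : Type} [CommRing A] [IsLocalRing A] [Algebra 𝒪 A]
  [IsAdicComplete (maximalIdeal A) A] [IsLocalHom (algebraMap 𝒪 A)]
  {G : Type*} [CommGroup G]

/-- **the fields `[AQ]` and `[WL]` of `IhaHecke` at a Taylor–Wiles prime `q`**: the inertia scalar
`aq` of helper5's `ihta_AQ` (with all its properties, for the consumer (H) [SC]) satisfies (WL) as soon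
as `P.ψ (tr rA(σ)) ≠ 2` at every joint eigen-point whose diamond character is non-trivial at `γ` -/
theorem ihn_AQ_WL {p q : ℕ} (hp : p.Prime) (hq : q.Prime) (hpq : p ≠ q)
    (hp𝒪 : (p : 𝒪) ∈ maximalIdeal 𝒪)
    (hres : Function.Surjective (residue A ∘ algebraMap 𝒪 A))
    (hA : ∃ k : ℕ, maximalIdeal A ^ k ≤ (maximalIdeal 𝒪).map (algebraMap 𝒪 A))
    (ρM : A →ₐ[𝒪] Module.End 𝒪 M)
    (hG : ∀ g : G, ∃ c : ℕ, g ^ (p ^ c) = 1) (x : G →* Module.End 𝒪 M)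
    (hcomm : ∀ t g, Commute (ρM t) (x g)) (γ : G)
    (ρbar : ResidualGaloisRep (ResidueField 𝒪))
    (b : Module.Basis (Fin 2) (ResidueField 𝒪) ρbar.V) (hunr : ρbar.IsUnramifiedAt q)
    (hTW : IsTWPrime ρbar q)
    (Pl : ValuationSubring Qb) (hPl : Pl.LiesOverPrime q)
    (r : GQ →* Matrix (Fin 2) (Fin 2) A) (hcts : MatCts A r)
    (hr : IsStrictLift (𝒪 := 𝒪) (resMat ρbar b) r)
    {φ σ : GQ} (hφ : Pl.IsFrobeniusAt φ q) (hσ : σ ∈ Pl.inertiaSubgroupIn ℚ)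
    (hdet : (r σ).det = 1)
    (c u : ℕ) (hqcu : q = 1 + p ^ c * u) (hu : ¬ p ∣ u) (hc : 0 < c)
    (hne : ∀ (P : AlpqPoint 𝒪 A) (χ : G →* P.R) (y : P.R ⊗[𝒪] M), y ≠ 0 →
      (∀ t, (ρM t).baseChange P.R y = P.ψ t • y) → (∀ g, (x g).baseChange P.R y = χ g • y) →
      χ γ ≠ 1 → P.ψ (r σ).trace ≠ 2) :
    ∃ (aq aq' : A) (e : Matrix (Fin 2) (Fin 2) A),
      (aq * aq' = 1 ∧ aq ^ (p ^ c) = 1 ∧ aq - 1 ∈ maximalIdeal A ∧
        e * e = e ∧ e.trace = 1 ∧ r φ * e = e * r φ ∧ aq = (e * r σ).trace ∧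
        r σ = aq • e + aq' • (1 - e) ∧ (r σ).trace = aq + aq' ∧ r φ * r σ = r σ * r φ) ∧
      ∀ v : M, (∑ k ∈ Finset.range p, x γ ^ k : Module.End 𝒪 M) v = 0 → ρM aq v = v → v = 0 := by
  have hpA : (p : A) ∈ maximalIdeal A := by
    have h := map_nonunit (algebraMap 𝒪 A) _ hp𝒪
    rwa [map_natCast] at h
  obtain ⟨aq, aq', e, k1, k2, k3, k4, k5, k6, k7, k8, k9, k10⟩ :=
    ihta_AQ hp hq hpq hpA ρbar b hunr hTW Pl hPl r hcts hr hφ hσ hdet c u hqcu hu hc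
  refine ⟨aq, aq', e, ⟨k1, k2, k3, k4, k5, k6, k7, k8, k9, k10⟩, fun v h1 h2 => ?_⟩
  exact ihn_WL hp hp𝒪 hres hA ρM hG x hcomm γ aq
    (fun P χ y hy0 hyA hyG hχ =>
      ihn_hpt_of_trace P (r σ).trace aq aq' k1 k9 (hne P χ y hy0 hyA hyG hχ)) v h1 h2

end AQWL

section PT'

variable {𝒪 : Type} [CommRing 𝒪] [IsLocalRing 𝒪]
  {A : Type} [CommRing A] [IsLocalRing A] [Algebra 𝒪 A] [IsLocalHom (algebraMap 𝒪 A)]

/-- **(PT) for a strict lift of a residual representation unramified at `v`** (the form consumed by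
`ihn_TC` and `ihn_AQ_WL`) -/
theorem ihn_PT_strictLift (p : ℕ) [Fact p.Prime] (hp𝒪 : (p : 𝒪) ∈ maximalIdeal 𝒪)
    (ρbar : ResidualGaloisRep (ResidueField 𝒪))
    (b : Module.Basis (Fin 2) (ResidueField 𝒪) ρbar.V)
    (rA : GQ →* Matrix (Fin 2) (Fin 2) A) (hcts : MatCts A rA)
    (hr : IsStrictLift (𝒪 := 𝒪) (resMat ρbar b) rA)
    (S : Finset ℕ) (τ : ℕ → A)
    (hfrobA : ∀ ℓ : ℕ, ℓ.Prime → ℓ ∉ S → ∀ Pl : ValuationSubring Qb, Pl.LiesOverPrime ℓ →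
      ∀ φ : GQ, Pl.IsFrobeniusAt φ ℓ → (rA φ).trace = τ ℓ ∧ (rA φ).det = (ℓ : A))
    (P : AlpqPoint 𝒪 A)
    {N : ℕ} [NeZero N] {H : Subgroup (ZMod N)ˣ} {Rl : List ℕ} {k : ℕ → ℕ}
    (hyp : IhtcHyp N H Rl k) {v : ℕ} (hv : v ∈ Rl) (hvp : v ≠ p)
    (hunr : ρbar.IsUnramifiedAt v)
    {N' : ℕ} [NeZero N'] (hN' : N' = N * Rl.prod)
    (hpS : p ∈ S) (hNS : ∀ q : ℕ, q.Prime → q ∣ N' → q ∈ S)
    (Ψ : (ZMod N)ˣ →* P.R) (c : ↥(parabolicHoms P.R (ihfGammaH N H) P.R)) (hc0 : c ≠ 0)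
    (hcD : ∀ x : (ZMod N)ˣ, (ihfSysD N H x).homPar P.R P.R c = Ψ x • c)
    (hcT : ∀ ℓ : ℕ, ℓ.Prime → ¬ ℓ ∣ N' → ℓ ∉ S →
      ihtrOp H P.R P.R (ihtcZ N Rl k) ℓ c = P.ψ (τ ℓ) • c)
    (hΨ : ∃ u : (ZMod v)ˣ, Ψ (ihtcY N k v u) ≠ 1)
    (Pl : ValuationSubring Qb) (hPl : Pl.LiesOverPrime v) (σ : GQ) (hσ : IhgGen p Pl σ)
    (hdet : (rA σ).det = 1) : P.ψ (rA σ).trace ≠ 2 := by
  have hpA : (p : A) ∈ maximalIdeal A := by
    have h := map_nonunit (algebraMap 𝒪 A) _ hp𝒪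
    rwa [map_natCast] at h
  exact ihn_PT p hp𝒪 hpA rA hcts S τ hfrobA P hyp hv hvp hN' hpS hNS Ψ c hc0 hcD hcT hΨ Pl hPl σ hσ
    (fun τ' hτ' => ihta_hres_of_strictLift ρbar b rA hr τ' (hunr Pl hPl τ' hτ')) hdet

end PT'

end Fermat.Agent.Ihara
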