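/-
IHARA / Nf (helper4), part 15: **the blocks [TC]1,2 and [AQ] + [WL] of `IhaHecke`** in the setting of the
final tuple, with POINT→CLASS as a hypothesis.

Setting (abstract, to keep the unifier away from the concrete types; instantiate `Mχ := IhmChiPart …`,
`dia := ihmChiDia …`, `Tb ℓ := ihmChiOp … ℓ * ihmChiDia … ↑(z ℓ)`, `A := IhdImg O a θ'`,
`ρM := ihiAct O a θ' hpart`, `τ ℓ := ihdImgPi … T_ℓ`, `D := (ZMod N)ˣ ⧸ H`, `mkD := QuotientGroup.mk' H`,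
`G := IhqDelta …`, `ι := Δ₂.subtype ∘ (ihqD2Equiv h).symm`):

* `Mχ` a finite torsion-free `O`-module with the action `ρM` of the local `O`-algebra `A` and the
  action `dia` of the commutative group `D`; `Δ₁ ≤ D` acts through `χ′ : Δ₁ →* O`; `ι : G →* D` with
  `D = Δ₁ · ι(G)`;
* `hPC` (POINT→CLASS): a non-zero joint eigenvector `y ∈ R ⊗ Mχ` of the `Tb ℓ` (eigenvalues `lam ℓ`)
  and of `D` (character `Ψ`) gives a class `c ≠ 0` in `Hom_par(Γ_H(N), R)` with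
  `⟨d⟩ c = Ψ (mkD d) c`, `T♭_ℓ c = lam ℓ c`.

* `ihn_fields_point`  : at a joint eigen-triple `(P, χ, y)` of `(A, G)` whose diamond character is
  non-trivial at `v ∈ Rl`: `P.ψ (tr rA(σ_v)) ≠ 2`;
* `ihn_fields_TC`     : the fields [TC]1,2 at a C-prime `v`;
* `ihn_fields_AQ_WL`  : the fields [AQ], [WL] at a Taylor–Wiles prime `q` (with the `ihta_AQ` package).
-/
import Mathlib
import Fermat.Agent.Lib.Ihara.Nf.Wire

set_option autoImplicit false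
set_option linter.unusedSectionVars false
set_option linter.unusedVariables false
set_option linter.style.haveILetI false

open scoped TensorProduct
open IsLocalRing Matrix MatrixGroups CongruenceSubgroup Fermat.Agent.T1 Fermat.Agent.T2
  Fermat.Agent.T4 ModularCurve Fermat.Agent.S24Lib ModularCurve.Period Fermat.Agent.S53Lib
  Fermat.Agent.DS Fermat.Agent.T1G Fermat.Agent.TW Polynomial

namespace Fermat.Agent.Ihara

open Fermat.Agent.Alpha (AlpqPoint)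

local notation "Qb" => AlgebraicClosure ℚ
local notation "GQ" => (AlgebraicClosure ℚ ≃ₐ[ℚ] AlgebraicClosure ℚ)

section Char

variable {D : Type*} [Monoid D] {R : Type*} [CommRing R] [IsDomain R]
  {V : Type*} [AddCommGroup V] [Module R V] [Module.IsTorsionFree R V]

/-- the eigenvalues of a monoid of endomorphisms on a non-zero joint eigenvector form a character -/
theorem ihn_exists_char_of_eigen (ρ : D →* Module.End R V) (y : V) (hy0 : y ≠ 0)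
    (h : ∀ δ, ∃ e : R, ρ δ y = e • y) : ∃ Ψ : D →* R, ∀ δ, ρ δ y = Ψ δ • y := by
  choose e he using h
  have hcancel : ∀ c c' : R, c • y = c' • y → c = c' := by
    intro c c' hcc
    have h1 : (c - c') • y = 0 := by rw [sub_smul, hcc, sub_self]
    exact sub_eq_zero.mp ((smul_eq_zero.mp h1).resolve_right hy0)
  refine ⟨{ toFun := e, map_one' := ?_, map_mul' := ?_ }, he⟩
  · apply hcancel
    rw [← he, map_one, Module.End.one_apply, one_smul]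
  · intro δ δ'
    apply hcancel
    rw [← he, map_mul, Module.End.mul_apply, he δ', map_smul, he δ, smul_smul, mul_comm]

end Char

section Point

variable {O : Type} [CommRing O] [IsDomain O] [IsDiscreteValuationRing O]
  [IsAdicComplete (maximalIdeal O) O] [Finite (ResidueField O)] [CharZero O]
  {Mχ : Type} [AddCommGroup Mχ] [Module O Mχ] [Module.Finite O Mχ] [Module.IsTorsionFree O Mχ]
  {A : Type} [CommRing A] [IsLocalRing A] [Algebra O A] [IsLocalHom (algebraMap O A)]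
  {D : Type*} [CommGroup D] {G : Type*} [CommGroup G]

/-- **the non-fixedness at a joint eigen-triple whose diamond character is non-trivial at `v`** -/
theorem ihn_fields_point (p : ℕ) [Fact p.Prime] (hpO : (p : O) ∈ maximalIdeal O)
    (ρM : A →ₐ[O] Module.End O Mχ) (dia : D →* Module.End O Mχ)
    (Δ₁ : Subgroup D) (χ' : Δ₁ →* O) (hχ' : ∀ (δ : Δ₁) (x : Mχ), dia δ x = χ' δ • x)
    (ι : G →* D) (hc : ∀ δ : D, ∃ δ₁ : Δ₁, ∃ g : G, δ = (δ₁ : D) * ι g)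
    (ρbar : ResidualGaloisRep (ResidueField O))
    (b : Module.Basis (Fin 2) (ResidueField O) ρbar.V)
    (rA : GQ →* Matrix (Fin 2) (Fin 2) A) (hcts : MatCts A rA)
    (hr : IsStrictLift (𝒪 := O) (resMat ρbar b) rA)
    (S : Finset ℕ) (τ : ℕ → A)
    (hfrobA : ∀ ℓ : ℕ, ℓ.Prime → ℓ ∉ S → ∀ Pl : ValuationSubring Qb, Pl.LiesOverPrime ℓ →
      ∀ φ : GQ, Pl.IsFrobeniusAt φ ℓ → (rA φ).trace = τ ℓ ∧ (rA φ).det = (ℓ : A))
    (Tb : ℕ → Module.End O Mχ) (hτ : ∀ ℓ : ℕ, ℓ.Prime → ℓ ∉ S → ρM (τ ℓ) = Tb ℓ)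
    {N : ℕ} [NeZero N] {H : Subgroup (ZMod N)ˣ} (mkD : (ZMod N)ˣ →* D)
    {Rl : List ℕ} {k : ℕ → ℕ} (hyp : IhtcHyp N H Rl k)
    {N' : ℕ} [NeZero N'] (hN' : N' = N * Rl.prod)
    (hpS : p ∈ S) (hNS : ∀ q : ℕ, q.Prime → q ∣ N' → q ∈ S)
    (P : AlpqPoint O A)
    (hPC : ∀ (y : P.R ⊗[O] Mχ), y ≠ 0 → ∀ (lam : ℕ → P.R) (Ψ : D →* P.R),
      (∀ ℓ : ℕ, ℓ.Prime → ℓ ∉ S → (Tb ℓ).baseChange P.R y = lam ℓ • y) →
      (∀ δ, (dia δ).baseChange P.R y = Ψ δ • y) →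
      ∃ c : ↥(parabolicHoms P.R (ihfGammaH N H) P.R), c ≠ 0 ∧
        (∀ d : (ZMod N)ˣ, (ihfSysD N H d).homPar P.R P.R c = Ψ (mkD d) • c) ∧
        (∀ ℓ : ℕ, ℓ.Prime → ¬ ℓ ∣ N' → ℓ ∉ S →
          ihtrOp H P.R P.R (ihtcZ N Rl k) ℓ c = lam ℓ • c))
    {v : ℕ} (hv : v ∈ Rl) (hvp : v ≠ p) (hunr : ρbar.IsUnramifiedAt v)
    (Pl : ValuationSubring Qb) (hPl : Pl.LiesOverPrime v) (σ : GQ) (hσ : IhgGen p Pl σ)
    (hdet : (rA σ).det = 1)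
    (χ : G →* P.R) (y : P.R ⊗[O] Mχ) (hy0 : y ≠ 0)
    (hyA : ∀ t, (ρM t).baseChange P.R y = P.ψ t • y)
    (hyG : ∀ g, (dia (ι g)).baseChange P.R y = χ g • y)
    (hnt : ∀ Ψ : D →* P.R, (∀ δ : Δ₁, Ψ δ = algebraMap O P.R (χ' δ)) → (∀ g : G, Ψ (ι g) = χ g) →
      ∃ u : (ZMod v)ˣ, Ψ (mkD (ihtcY N k v u)) ≠ 1) :
    P.ψ (rA σ).trace ≠ 2 := by
  haveI : Module.Free O Mχ := Module.free_of_finite_type_torsion_free'
  haveI : Module.IsTorsionFree P.R (P.R ⊗[O] Mχ) := inferInstance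
  have hcancel : ∀ c c' : P.R, c • y = c' • y → c = c' := by
    intro c c' hcc
    have h0 : (c - c') • y = c • y - c' • y := by module
    have h1 : (c - c') • y = 0 := by rw [h0, hcc, sub_self]
    exact sub_eq_zero.mp ((smul_eq_zero.mp h1).resolve_right hy0)
  -- `Δ₁` acts through `χ'` after base change
  have hΔ₁ : ∀ (δ : Δ₁) (w : P.R ⊗[O] Mχ),
      (dia δ).baseChange P.R w = algebraMap O P.R (χ' δ) • w := by
    intro δ w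
    have h1 : dia (δ : D) = χ' δ • (1 : Module.End O Mχ) := by
      ext x
      rw [hχ' δ x, LinearMap.smul_apply, Module.End.one_apply]
    rw [h1, LinearMap.baseChange_smul, LinearMap.smul_apply, Module.End.one_eq_id,
      LinearMap.baseChange_id, LinearMap.id_apply, algebraMap_smul]
  -- the monoid hom `δ ↦ (dia δ).baseChange`
  let ρD : D →* Module.End P.R (P.R ⊗[O] Mχ) :=
    ((Module.End.baseChangeHom O P.R Mχ : Module.End O Mχ →ₐ[O] Module.End P.R (P.R ⊗[O] Mχ)) :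
      Module.End O Mχ →* Module.End P.R (P.R ⊗[O] Mχ)).comp dia
  have hρD : ∀ δ w, ρD δ w = (dia δ).baseChange P.R w := fun δ w => rfl
  have heig : ∀ δ, ∃ e : P.R, ρD δ y = e • y := by
    intro δ
    obtain ⟨δ₁, g, rfl⟩ := hc δ
    refine ⟨algebraMap O P.R (χ' δ₁) * χ g, ?_⟩
    rw [map_mul, Module.End.mul_apply, hρD, hρD, hyG, map_smul, hΔ₁, smul_smul, mul_comm]
  obtain ⟨Ψ, hΨ⟩ := ihn_exists_char_of_eigen ρD y hy0 heig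
  have hΨ₁ : ∀ δ : Δ₁, Ψ δ = algebraMap O P.R (χ' δ) := fun δ =>
    hcancel _ _ (by rw [← hΨ, hρD, hΔ₁])
  have hΨ₂ : ∀ g : G, Ψ (ι g) = χ g := fun g => hcancel _ _ (by rw [← hΨ, hρD, hyG])
  obtain ⟨c, hc0, hcD, hcT⟩ := hPC y hy0 (fun ℓ => P.ψ (τ ℓ)) Ψ
    (fun ℓ hℓ hℓS => by rw [← hτ ℓ hℓ hℓS, hyA]) (fun δ => by rw [← hρD, hΨ])
  exact ihn_PT_strictLift p hpO ρbar b rA hcts hr S τ hfrobA P hyp hv hvp hunr hN' hpS hNS
    (Ψ.comp mkD) c hc0 hcD hcT (hnt Ψ hΨ₁ hΨ₂) Pl hPl σ hσ hdet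

end Point

section Blocks

variable {O : Type} [CommRing O] [IsDomain O] [IsDiscreteValuationRing O]
  [IsAdicComplete (maximalIdeal O) O] [Finite (ResidueField O)] [CharZero O]
  {Mχ : Type} [AddCommGroup Mχ] [Module O Mχ] [Module.Finite O Mχ] [Module.IsTorsionFree O Mχ]
  {A : Type} [CommRing A] [IsLocalRing A] [Algebra O A] [IsLocalHom (algebraMap O A)]
  [IsAdicComplete (maximalIdeal A) A]
  {D : Type*} [CommGroup D] {G : Type*} [CommGroup G]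

/-- **the fields [TC]1,2 of `IhaHecke` at a C-prime `v`** (`χ'` non-trivial at the `v`-component) -/
theorem ihn_fields_TC [Module.Finite O A] [IsReduced A]
    (p : ℕ) [Fact p.Prime] (hp2 : p ≠ 2) (hpO : (p : O) ∈ maximalIdeal O)
    (hres : Function.Surjective (residue A ∘ algebraMap O A))
    (ρM : A →ₐ[O] Module.End O Mχ) (hinj : Function.Injective ρM)
    (dia : D →* Module.End O Mχ) (hcomm : ∀ t δ, Commute (ρM t) (dia δ))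
    (Δ₁ : Subgroup D) (χ' : Δ₁ →* O) (hχ' : ∀ (δ : Δ₁) (x : Mχ), dia δ x = χ' δ • x)
    (ι : G →* D) (hc : ∀ δ : D, ∃ δ₁ : Δ₁, ∃ g : G, δ = (δ₁ : D) * ι g)
    (hG : ∀ g : G, ∃ c : ℕ, g ^ (p ^ c) = 1)
    (ρbar : ResidualGaloisRep (ResidueField O))
    (b : Module.Basis (Fin 2) (ResidueField O) ρbar.V)
    (rA : GQ →* Matrix (Fin 2) (Fin 2) A) (hcts : MatCts A rA)
    (hr : IsStrictLift (𝒪 := O) (resMat ρbar b) rA)
    (S : Finset ℕ) (τ : ℕ → A)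
    (hfrobA : ∀ ℓ : ℕ, ℓ.Prime → ℓ ∉ S → ∀ Pl : ValuationSubring Qb, Pl.LiesOverPrime ℓ →
      ∀ φ : GQ, Pl.IsFrobeniusAt φ ℓ → (rA φ).trace = τ ℓ ∧ (rA φ).det = (ℓ : A))
    (Tb : ℕ → Module.End O Mχ) (hτ : ∀ ℓ : ℕ, ℓ.Prime → ℓ ∉ S → ρM (τ ℓ) = Tb ℓ)
    {N : ℕ} [NeZero N] {H : Subgroup (ZMod N)ˣ} (mkD : (ZMod N)ˣ →* D)
    {Rl : List ℕ} {k : ℕ → ℕ} (hyp : IhtcHyp N H Rl k)
    {N' : ℕ} [NeZero N'] (hN' : N' = N * Rl.prod)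
    (hpS : p ∈ S) (hNS : ∀ q : ℕ, q.Prime → q ∣ N' → q ∈ S)
    (hPC : ∀ (P : AlpqPoint O A) (y : P.R ⊗[O] Mχ), y ≠ 0 → ∀ (lam : ℕ → P.R) (Ψ : D →* P.R),
      (∀ ℓ : ℕ, ℓ.Prime → ℓ ∉ S → (Tb ℓ).baseChange P.R y = lam ℓ • y) →
      (∀ δ, (dia δ).baseChange P.R y = Ψ δ • y) →
      ∃ c : ↥(parabolicHoms P.R (ihfGammaH N H) P.R), c ≠ 0 ∧
        (∀ d : (ZMod N)ˣ, (ihfSysD N H d).homPar P.R P.R c = Ψ (mkD d) • c) ∧
        (∀ ℓ : ℕ, ℓ.Prime → ¬ ℓ ∣ N' → ℓ ∉ S →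
          ihtrOp H P.R P.R (ihtcZ N Rl k) ℓ c = lam ℓ • c))
    {v : ℕ} (hvprime : v.Prime) (hv : v ∈ Rl) (hvp : v ≠ p) (hunr : ρbar.IsUnramifiedAt v)
    (Pl : ValuationSubring Qb) (hPl : Pl.LiesOverPrime v) {φ σ : GQ}
    (hφ : Pl.IsFrobeniusAt φ v) (hσ : IhgGen p Pl σ) (hdet : (rA σ).det = 1)
    (a u : ℕ) (hvau : v = 1 + p ^ a * u) (hu : ¬ p ∣ u) (ha : 0 < a)
    (μ : Finset Oˣ)
    (hμ : (X ^ (p ^ a) - 1 : O[X]) = (X - 1) * ∏ ζ ∈ μ, (X - C (ζ : O)))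
    (hγ : ∃ u : (ZMod v)ˣ, ∃ δ₁ : Δ₁, mkD (ihtcY N k v u) = δ₁ ∧ χ' δ₁ ≠ 1) :
    ∏ ζ ∈ μ, ((rA σ).trace - algebraMap O A ((ζ : O) + ((ζ⁻¹ : Oˣ) : O))) = 0 ∧
      rA φ * rA σ = rA σ * rA φ := by
  have hp : p.Prime := Fact.out
  refine ihn_TC hp hp2 hvprime (Ne.symm hvp) hpO hres ρM hinj hG (dia.comp ι)
    (fun t g => hcomm t (ι g)) ρbar b hunr Pl hPl rA hcts hr hφ hσ.mem hdet a u hvau hu ha μ hμ
    (fun P χ y hy0 hyA hyG => ?_)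
  refine ihn_fields_point p hpO ρM dia Δ₁ χ' hχ' ι hc ρbar b rA hcts hr S τ hfrobA Tb hτ mkD hyp
    hN' hpS hNS P (hPC P) hv hvp hunr Pl hPl σ hσ hdet χ y hy0 hyA hyG (fun Ψ hΨ₁ _ => ?_)
  obtain ⟨u', δ₁, h1, h2⟩ := hγ
  refine ⟨u', ?_⟩
  rw [h1, hΨ₁]
  intro h3
  apply h2
  apply P.inj
  rw [h3, map_one]

/-- **the fields [AQ] and [WL] of `IhaHecke` at a Taylor–Wiles prime `q`** (`γ` the generator of the
`q`-component of the diamond group), with the whole `ihta_AQ` package of the inertia scalar -/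
theorem ihn_fields_AQ_WL
    (p : ℕ) [Fact p.Prime] (hpO : (p : O) ∈ maximalIdeal O)
    (hres : Function.Surjective (residue A ∘ algebraMap O A))
    (hA : ∃ k : ℕ, maximalIdeal A ^ k ≤ (maximalIdeal O).map (algebraMap O A))
    (ρM : A →ₐ[O] Module.End O Mχ)
    (dia : D →* Module.End O Mχ) (hcomm : ∀ t δ, Commute (ρM t) (dia δ))
    (Δ₁ : Subgroup D) (χ' : Δ₁ →* O) (hχ' : ∀ (δ : Δ₁) (x : Mχ), dia δ x = χ' δ • x)
    (ι : G →* D) (hc : ∀ δ : D, ∃ δ₁ : Δ₁, ∃ g : G, δ = (δ₁ : D) * ι g)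
    (hG : ∀ g : G, ∃ c : ℕ, g ^ (p ^ c) = 1)
    (ρbar : ResidualGaloisRep (ResidueField O))
    (b : Module.Basis (Fin 2) (ResidueField O) ρbar.V)
    (rA : GQ →* Matrix (Fin 2) (Fin 2) A) (hcts : MatCts A rA)
    (hr : IsStrictLift (𝒪 := O) (resMat ρbar b) rA)
    (S : Finset ℕ) (τ : ℕ → A)
    (hfrobA : ∀ ℓ : ℕ, ℓ.Prime → ℓ ∉ S → ∀ Pl : ValuationSubring Qb, Pl.LiesOverPrime ℓ →
      ∀ φ : GQ, Pl.IsFrobeniusAt φ ℓ → (rA φ).trace = τ ℓ ∧ (rA φ).det = (ℓ : A))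
    (Tb : ℕ → Module.End O Mχ) (hτ : ∀ ℓ : ℕ, ℓ.Prime → ℓ ∉ S → ρM (τ ℓ) = Tb ℓ)
    {N : ℕ} [NeZero N] {H : Subgroup (ZMod N)ˣ} (mkD : (ZMod N)ˣ →* D)
    {Rl : List ℕ} {k : ℕ → ℕ} (hyp : IhtcHyp N H Rl k)
    {N' : ℕ} [NeZero N'] (hN' : N' = N * Rl.prod)
    (hpS : p ∈ S) (hNS : ∀ q : ℕ, q.Prime → q ∣ N' → q ∈ S)
    (hPC : ∀ (P : AlpqPoint O A) (y : P.R ⊗[O] Mχ), y ≠ 0 → ∀ (lam : ℕ → P.R) (Ψ : D →* P.R),
      (∀ ℓ : ℕ, ℓ.Prime → ℓ ∉ S → (Tb ℓ).baseChange P.R y = lam ℓ • y) →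
      (∀ δ, (dia δ).baseChange P.R y = Ψ δ • y) →
      ∃ c : ↥(parabolicHoms P.R (ihfGammaH N H) P.R), c ≠ 0 ∧
        (∀ d : (ZMod N)ˣ, (ihfSysD N H d).homPar P.R P.R c = Ψ (mkD d) • c) ∧
        (∀ ℓ : ℕ, ℓ.Prime → ¬ ℓ ∣ N' → ℓ ∉ S →
          ihtrOp H P.R P.R (ihtcZ N Rl k) ℓ c = lam ℓ • c))
    {q : ℕ} (hq : q.Prime) (hqRl : q ∈ Rl) (hqp : q ≠ p) (hunr : ρbar.IsUnramifiedAt q)
    (hTW : IsTWPrime ρbar q)
    (Pl : ValuationSubring Qb) (hPl : Pl.LiesOverPrime q) {φ σ : GQ}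
    (hφ : Pl.IsFrobeniusAt φ q) (hσ : IhgGen p Pl σ) (hdet : (rA σ).det = 1)
    (c u : ℕ) (hqcu : q = 1 + p ^ c * u) (hu : ¬ p ∣ u) (hc0 : 0 < c)
    (γ : G) (hγ : ∃ u : (ZMod q)ˣ, mkD (ihtcY N k q u) = ι γ) :
    ∃ (aq aq' : A) (e : Matrix (Fin 2) (Fin 2) A),
      (aq * aq' = 1 ∧ aq ^ (p ^ c) = 1 ∧ aq - 1 ∈ maximalIdeal A ∧
        e * e = e ∧ e.trace = 1 ∧ rA φ * e = e * rA φ ∧ aq = (e * rA σ).trace ∧
        rA σ = aq • e + aq' • (1 - e) ∧ (rA σ).trace = aq + aq' ∧ rA φ * rA σ = rA σ * rA φ) ∧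
      ∀ v : Mχ, (∑ k ∈ Finset.range p, (dia.comp ι) γ ^ k : Module.End O Mχ) v = 0 →
        ρM aq v = v → v = 0 := by
  have hp : p.Prime := Fact.out
  refine ihn_AQ_WL hp hq (Ne.symm hqp) hpO hres hA ρM hG (dia.comp ι)
    (fun t g => hcomm t (ι g)) γ ρbar b hunr hTW Pl hPl rA hcts hr hφ hσ.mem hdet c u hqcu hu hc0
    (fun P χ y hy0 hyA hyG hχγ => ?_)
  refine ihn_fields_point p hpO ρM dia Δ₁ χ' hχ' ι hc ρbar b rA hcts hr S τ hfrobA Tb hτ mkD hyp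
    hN' hpS hNS P (hPC P) hqRl hqp hunr Pl hPl σ hσ hdet χ y hy0 hyA hyG (fun Ψ _ hΨ₂ => ?_)
  obtain ⟨u', h1⟩ := hγ
  exact ⟨u', by rw [h1, hΨ₂]; exact hχγ⟩

end Blocks

end Fermat.Agent.Ihara
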