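/-
IHARA / Nf (helper4), part 1 (Mathlib only): **a common fixed vector for a multiplicatively closed
family of endomorphisms `g` with `(g - 1)² = 0`**.

* `ihn_anticomm` : in a ring, `(g-1)² = (h-1)² = (gh-1)² = 0 ⟹ (g-1)(h-1) + (h-1)(g-1) = 0`
  (`2 - g`, `2 - h`, `2 - gh` are the inverses of `g`, `h`, `gh`, and `(gh)⁻¹ = h⁻¹ g⁻¹`);
* `ihn_exists_common_fixed` : a non-zero Noetherian torsion-free module over a domain with a
  multiplicatively closed family `π i` of endomorphisms with `(π i - 1)² = 0` has a non-zero vector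
  fixed by all `π i` (induction on the rank: if `π i ≠ 1`, pass to `ker (π i - 1)`, which is
  non-zero, stable by anticommutation, and of smaller rank).
-/
import Mathlib

set_option autoImplicit false
set_option linter.unusedSectionVars false
set_option linter.unusedVariables false
set_option linter.style.haveILetI false

namespace Fermat.Agent.Ihara

/-- the nilpotent parts of unipotents of exponent two whose product is again unipotent of exponent
two anticommute -/
theorem ihn_anticomm {E : Type*} [Ring E] (g h : E) (hg : (g - 1) * (g - 1) = 0)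
    (hh : (h - 1) * (h - 1) = 0) (hgh : (g * h - 1) * (g * h - 1) = 0) :
    (g - 1) * (h - 1) + (h - 1) * (g - 1) = 0 := by
  have e1 : h * (2 - h) = 1 := by
    have : h * (2 - h) = 1 - (h - 1) * (h - 1) := by noncomm_ring
    rw [this, hh, sub_zero]
  have e2 : g * (2 - g) = 1 := by
    have : g * (2 - g) = 1 - (g - 1) * (g - 1) := by noncomm_ring
    rw [this, hg, sub_zero]
  have e3 : (2 - g * h) * (g * h) = 1 := by
    have : (2 - g * h) * (g * h) = 1 - (g * h - 1) * (g * h - 1) := by noncomm_ring
    rw [this, hgh, sub_zero]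
  have e4 : (g * h) * ((2 - h) * (2 - g)) = 1 := by
    calc (g * h) * ((2 - h) * (2 - g)) = g * (h * (2 - h)) * (2 - g) := by noncomm_ring
      _ = 1 := by rw [e1, mul_one, e2]
  have e5 : (2 - h) * (2 - g) = 2 - g * h := by
    calc (2 - h) * (2 - g) = ((2 - g * h) * (g * h)) * ((2 - h) * (2 - g)) := by rw [e3, one_mul]
      _ = (2 - g * h) * ((g * h) * ((2 - h) * (2 - g))) := by rw [mul_assoc]
      _ = 2 - g * h := by rw [e4, mul_one]
  have e6 : (g - 1) * (h - 1) + (h - 1) * (g - 1) = (2 - h) * (2 - g) - (2 - g * h) := by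
    rw [← one_add_one_eq_two]
    simp only [sub_mul, mul_sub, mul_one, one_mul, add_mul, mul_add]
    abel
  rw [e6, e5, sub_self]

universe u w

section Fixed

variable {R : Type u} [CommRing R] [IsDomain R]

theorem ihn_exists_common_fixed_aux (n : ℕ) :
    ∀ (Y : Type w) [AddCommGroup Y] [Module R Y] [IsNoetherian R Y] [Module.IsTorsionFree R Y]
      (ι : Type w) (π : ι → Module.End R Y) (_hmul : ∀ i j, ∃ k, π k = π i * π j)
      (_hunip : ∀ i, (π i - 1) * (π i - 1) = 0), Module.finrank R Y ≤ n → (∃ y : Y, y ≠ 0) →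
      ∃ y : Y, y ≠ 0 ∧ ∀ i, π i y = y := by
  induction n with
  | zero =>
    intro Y _ _ _ _ ι π hmul hunip hn hY
    exfalso
    have := (Module.finrank_pos_iff_exists_ne_zero (R := R) (M := Y)).mpr hY
    omega
  | succ n ih =>
    intro Y _ _ _ _ ι π hmul hunip hn hY
    by_cases hall : ∀ i, ∀ y : Y, π i y = y
    · obtain ⟨y, hy⟩ := hY
      exact ⟨y, hy, fun i => hall i y⟩
    · push Not at hall
      obtain ⟨i₀, y₀, hy₀⟩ := hall
      set a : Module.End R Y := π i₀ - 1 with ha
      have haa : ∀ y, a (a y) = 0 := fun y => by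
        have h1 : a (a y) = ((π i₀ - 1) * (π i₀ - 1)) y := rfl
        rw [h1, hunip i₀, LinearMap.zero_apply]
      have hay₀ : a y₀ ≠ 0 := by
        rw [ha, LinearMap.sub_apply, Module.End.one_apply]
        exact sub_ne_zero.mpr hy₀
      -- anticommutation
      have hanti : ∀ i y, a ((π i - 1) y) = -((π i - 1) (a y)) := by
        intro i y
        obtain ⟨k, hk⟩ := hmul i₀ i
        have h1 := ihn_anticomm (π i₀) (π i) (hunip i₀) (hunip i) (by rw [← hk]; exact hunip k)
        have h2 := congrArg (fun f : Module.End R Y => f y) h1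
        simp only [LinearMap.add_apply, Module.End.mul_apply, LinearMap.zero_apply] at h2
        exact eq_neg_of_add_eq_zero_left h2
      -- the kernel is stable
      have hstab : ∀ i, ∀ y ∈ LinearMap.ker a, π i y ∈ LinearMap.ker a := by
        intro i y hy
        rw [LinearMap.mem_ker] at hy ⊢
        have h1 : π i y = (π i - 1) y + y := by
          rw [LinearMap.sub_apply, Module.End.one_apply, sub_add_cancel]
        rw [h1, map_add, hy, add_zero, hanti, hy, map_zero, neg_zero]
      -- the rank drops
      have hrank : Module.finrank R ↥(LinearMap.ker a) ≤ n := by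
        have h1 := (LinearMap.ker a).finrank_quotient_add_finrank
        rw [LinearEquiv.finrank_eq a.quotKerEquivRange] at h1
        have h2 : 0 < Module.finrank R ↥(LinearMap.range a) :=
          (Module.finrank_pos_iff_exists_ne_zero (R := R) (M := ↥(LinearMap.range a))).mpr
            ⟨⟨a y₀, LinearMap.mem_range_self a y₀⟩, fun h => hay₀ (congrArg Subtype.val h)⟩
        omega
      obtain ⟨y, hy, hfix⟩ := ih ↥(LinearMap.ker a) ι
        (fun i => (π i).restrict (hstab i))
        (fun i j => by
          obtain ⟨k, hk⟩ := hmul i j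
          refine ⟨k, LinearMap.ext fun y => Subtype.ext ?_⟩
          simp only [LinearMap.coe_restrict_apply, Module.End.mul_apply, hk])
        (fun i => by
          refine LinearMap.ext fun y => Subtype.ext ?_
          have := congrArg (fun f : Module.End R Y => f (y : Y)) (hunip i)
          simp only [Module.End.mul_apply, LinearMap.sub_apply, Module.End.one_apply,
            LinearMap.zero_apply] at this
          simp only [Module.End.mul_apply, LinearMap.sub_apply, Module.End.one_apply,
            LinearMap.zero_apply, Submodule.coe_sub, LinearMap.coe_restrict_apply,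
            Submodule.coe_zero]
          exact this)
        hrank ⟨⟨a y₀, LinearMap.mem_ker.mpr (haa y₀)⟩, fun h => hay₀ (congrArg Subtype.val h)⟩
      refine ⟨(y : Y), fun h => hy (Subtype.ext h), fun i => ?_⟩
      have := congrArg Subtype.val (hfix i)
      simpa only [LinearMap.coe_restrict_apply] using this

/-- **a common fixed vector** -/
theorem ihn_exists_common_fixed {Y : Type w} [AddCommGroup Y] [Module R Y] [IsNoetherian R Y]
    [Module.IsTorsionFree R Y] {ι : Type w} (π : ι → Module.End R Y)
    (hmul : ∀ i j, ∃ k, π k = π i * π j) (hunip : ∀ i, (π i - 1) * (π i - 1) = 0)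
    (hY : ∃ y : Y, y ≠ 0) : ∃ y : Y, y ≠ 0 ∧ ∀ i, π i y = y :=
  ihn_exists_common_fixed_aux (Module.finrank R Y) Y ι π hmul hunip le_rfl hY

/-- **a common fixed vector in a stable submodule** on which the operators are unipotent of
exponent two -/
theorem ihn_exists_fixed_in_submodule {V : Type w} [AddCommGroup V] [Module R V] [IsNoetherian R V]
    [Module.IsTorsionFree R V] (Y : Submodule R V) {ι : Type w} (G : ι → Module.End R V)
    (hstab : ∀ i, ∀ y ∈ Y, G i y ∈ Y)
    (hmul : ∀ i j, ∃ k, ∀ y ∈ Y, G k y = G i (G j y))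
    (hunip : ∀ i, ∀ y ∈ Y, G i (G i y) - (2 : R) • G i y + y = 0)
    (hY : ∃ y ∈ Y, y ≠ 0) : ∃ y ∈ Y, y ≠ 0 ∧ ∀ i, G i y = y := by
  obtain ⟨y₀, hy₀, hy₀0⟩ := hY
  let π : ι → Module.End R ↥Y := fun i => (G i).restrict (hstab i)
  have hπ : ∀ i (y : ↥Y), ((π i y : ↥Y) : V) = G i (y : V) := fun i y => rfl
  have hmul' : ∀ i j, ∃ k, π k = π i * π j := by
    intro i j
    obtain ⟨k, hk⟩ := hmul i j
    refine ⟨k, LinearMap.ext fun y => Subtype.ext ?_⟩
    rw [Module.End.mul_apply, hπ, hπ, hπ, hk y y.2]
  have hunip' : ∀ i, (π i - 1) * (π i - 1) = 0 := by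
    intro i
    refine LinearMap.ext fun y => Subtype.ext ?_
    have h1 := hunip i y y.2
    simp only [Module.End.mul_apply, LinearMap.sub_apply, Module.End.one_apply,
      LinearMap.zero_apply, Submodule.coe_sub, hπ, Submodule.coe_zero, map_sub]
    rw [← h1, two_smul]
    abel
  obtain ⟨y, hy0, hfix⟩ := ihn_exists_common_fixed π hmul' hunip'
    ⟨⟨y₀, hy₀⟩, fun h => hy₀0 (congrArg Subtype.val h)⟩
  refine ⟨(y : V), y.2, fun h => hy0 (Subtype.ext h), fun i => ?_⟩
  have := congrArg Subtype.val (hfix i)
  rwa [hπ] at this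

end Fixed

end Fermat.Agent.Ihara
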